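import Fermat.Agent.RT.Interp.Plan
import Fermat.Agent.RT.K8.Abs
import Fermat.Agent.S31.Reduction
import Fermat.Agent.S32.KeyAlg
import Fermat.Agent.S58.GlueChi
import Fermat.Agent.STB.NewPoly
import Fermat.Agent.Cheb.Final

/-!
# K-machine, piece INTERP (helper46): K8-GLUE

`rtint_k8_of_geo : StmtK8Geo → StmtK8` (the abstract theorem `K8.stmtK8Abs` of helper21 and the
weak Chebotarev theorem `Cheb.weakChebotarev_holds` are PROVED, so **(G)** is the only input).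

* `K8.StmtK8Abs` (helper21, `RT/K8/Abs.lean`): the abstract theorem on trace functions.
* `StmtK8Geo` : the geometric clause **(G)** for a newform `g` of level `M`, `q ∥ M`, in terms of
  `g` only: a `G_ℚ × Hecke`-module `J` with the faithful `p`-adic Eichler–Shimura package of level
  `M`, a place `A ∣ q` with a Frobenius `φ`, and a Hecke polynomial `C₀` (variables outside `S`)
  with `heckeValue g C₀ ≠ 0` and `φ² (C₀ x) = q² (C₀ x)` for all `x ∈ J[p^∞]` fixed by inertia.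
  Available to the proof of **(G)**: `5 ≤ p`, `q ≠ 2`, and a prime `ℓ₀ ∉ S` at which `g` is not
  Eisenstein: `a_ℓ₀(g) ≠ ℓ₀ + 1` (`rtint_exists_nonEis`, from the absolute irreducibility).
* `StmtK8` : the consumer form of `RT/Interp/Plan.lean`.
* RESTRICTED FORMS (`5 ≤ q`, THE FORMS WHICH ARE USED): `StmtK8GeoE` (= `StmtK8Geo` with the extra
  hypothesis `5 ≤ q` after `¬ q ^ 2 ∣ M`), `rtint_k8E_of_geoE : StmtK8GeoE → StmtK8E`,
  `rtint_stmtTR_of_geoE : StmtK8GeoE → StmtBase → RIB.StmtTR`.  `K8GeoAt p M g q S` is the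
  conclusion of (G), `rtint_k8_at` the common proof.

Steps: `rtint_exists_chi` (the character `χ` of the Hecke algebra with `χ T_ℓ = a ℓ`),
`rtint_trace_spec` (the trace of `ρ` satisfies the specification of the trace function of S30:
weak Chebotarev + Lucas, as in S31), `S32.exists_unit_trace` (non-reducibility).
-/

set_option autoImplicit false

noncomputable section

namespace Fermat.Agent.RT.Interp

open ModularCurve Fermat.Agent.ES Fermat.Agent.S31 Fermat.Agent.S30 ModularFormClass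
  CongruenceSubgroup Polynomial

/-- **(G)**, the geometric clause of K8, in terms of the newform. -/
def StmtK8Geo : Prop :=
  ∀ (p : ℕ) [Fact p.Prime], 5 ≤ p → ∀ (M : ℕ) [NeZero M] (g : CuspForm (Gamma0 M) 2),
    g.IsNewform →
    ∀ q : ℕ, q.Prime → q ≠ p → q ≠ 2 → q ∣ M → ¬ q ^ 2 ∣ M →
    ∀ S : Finset ℕ, p ∈ S → (∀ r : ℕ, r.Prime → r ∣ M → r ∈ S) →
    ∀ ℓ₀ : Nat.Primes, (ℓ₀ : ℕ) ∉ S →
      heckeValue g (MvPolynomial.X ℓ₀ - MvPolynomial.C (((ℓ₀ : ℕ) : ℤ) + 1)) ≠ 0 →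
    ∃ (J : Type) (_ : AddCommGroup J) (_ : Module HeckeAlg J) (_ : DistribMulAction GQ J),
      ESDataInf M p J ∧ ESFaith M p J ∧
      ∃ (A : ValuationSubring (AlgebraicClosure ℚ)) (φ : GQ),
        A.LiesOverPrime q ∧ A.IsFrobeniusAt φ q ∧
        ∃ C₀ ∈ MvPolynomial.supported ℤ (outsideVars (↑S : Set ℕ)), heckeValue g C₀ ≠ 0 ∧
          ∀ x : J, IsPPowerTorsion p x → (∀ σ ∈ A.inertiaSubgroupIn ℚ, σ • x = x) →
            (φ * φ) • (C₀ • x) = (q ^ 2) • (C₀ • x)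

/-- the conclusion of **(G)** at one `(p, M, g, q, S)` -/
def K8GeoAt (p : ℕ) [Fact p.Prime] (M : ℕ) [NeZero M] (g : CuspForm (Gamma0 M) 2) (q : ℕ)
    (S : Finset ℕ) : Prop :=
  ∃ (J : Type) (_ : AddCommGroup J) (_ : Module HeckeAlg J) (_ : DistribMulAction GQ J),
    ESDataInf M p J ∧ ESFaith M p J ∧
    ∃ (A : ValuationSubring (AlgebraicClosure ℚ)) (φ : GQ),
      A.LiesOverPrime q ∧ A.IsFrobeniusAt φ q ∧
      ∃ C₀ ∈ MvPolynomial.supported ℤ (outsideVars (↑S : Set ℕ)), heckeValue g C₀ ≠ 0 ∧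
        ∀ x : J, IsPPowerTorsion p x → (∀ σ ∈ A.inertiaSubgroupIn ℚ, σ • x = x) →
          (φ * φ) • (C₀ • x) = (q ^ 2) • (C₀ • x)

/-- **(G), restricted to `5 ≤ q`** (THE FORM TO PROVE: the reduction package of `X₀(M / q)` at
`q` exists for `5 ≤ q`; the consumer `rtint_stmtTRE` has `q` trivial, hence `q ≥ 11`). -/
def StmtK8GeoE : Prop :=
  ∀ (p : ℕ) [Fact p.Prime], 5 ≤ p → ∀ (M : ℕ) [NeZero M] (g : CuspForm (Gamma0 M) 2),
    g.IsNewform →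
    ∀ q : ℕ, q.Prime → q ≠ p → q ≠ 2 → q ∣ M → ¬ q ^ 2 ∣ M → 5 ≤ q →
    ∀ S : Finset ℕ, p ∈ S → (∀ r : ℕ, r.Prime → r ∣ M → r ∈ S) →
    ∀ ℓ₀ : Nat.Primes, (ℓ₀ : ℕ) ∉ S →
      heckeValue g (MvPolynomial.X ℓ₀ - MvPolynomial.C (((ℓ₀ : ℕ) : ℤ) + 1)) ≠ 0 →
    ∃ (J : Type) (_ : AddCommGroup J) (_ : Module HeckeAlg J) (_ : DistribMulAction GQ J),
      ESDataInf M p J ∧ ESFaith M p J ∧
      ∃ (A : ValuationSubring (AlgebraicClosure ℚ)) (φ : GQ),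
        A.LiesOverPrime q ∧ A.IsFrobeniusAt φ q ∧
        ∃ C₀ ∈ MvPolynomial.supported ℤ (outsideVars (↑S : Set ℕ)), heckeValue g C₀ ≠ 0 ∧
          ∀ x : J, IsPPowerTorsion p x → (∀ σ ∈ A.inertiaSubgroupIn ℚ, σ • x = x) →
            (φ * φ) • (C₀ • x) = (q ^ 2) • (C₀ • x)

theorem stmtK8GeoE_of_stmtK8Geo (h : StmtK8Geo) : StmtK8GeoE :=
  fun p _ hp5 M _ g hg q hq hqp hq2 hqM hq2M _ => h p hp5 M g hg q hq hqp hq2 hqM hq2M

section spec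

variable {p : ℕ} [Fact p.Prime] {N : ℕ} [NeZero N] {J : Type} [AddCommGroup J]
  [Module HeckeAlg J] [DistribMulAction GQ J] {S : Finset ℕ}
  {A : Type} [CommRing A] [IsLocalRing A]

/-- **The trace of a representation with the Eichler–Shimura characteristic polynomials
satisfies the specification of the trace function of S30.** -/
theorem rtint_trace_spec (hcheb : Cheb.WeakChebotarev) (hJ : ESDataInf N p J)
    (hgoodN : ∀ r : ℕ, r.Prime → r ∉ S → ¬ r ∣ N)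
    (hgood : ∀ r : ℕ, r.Prime → r ∉ S → ¬ r ∣ N * p)
    (hpA : (p : A) ∈ IsLocalRing.maximalIdeal A)
    (χ : CuspForm.heckeAlgebra N 2 (↑S : Set ℕ) →+* A) (ρ : GaloisRepAdic A)
    (hfrob : ∀ (ℓ : ℕ) (hℓ : ℓ.Prime) (hℓN : ¬ ℓ ∣ N) (hℓS : ℓ ∉ (↑S : Set ℕ)),
      ∀ 𝔄 : ValuationSubring (AlgebraicClosure ℚ), 𝔄.LiesOverPrime ℓ →
        ∀ σ : GQ, 𝔄.IsFrobeniusAt σ ℓ →
          LinearMap.charpoly (ρ.ρ σ) =
            X ^ 2 - C (χ (CuspForm.heckeAlgebra.T hℓ hℓN hℓS)) * X + C ((ℓ : A)))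
    (g : GQ) (k n : ℕ) (h : HeckeAlg) (hG : Good p J S χ k n)
    (hh : h ∈ MvPolynomial.supported ℤ (outsideVars (↑S : Set ℕ))) (hA : Approx p J n g h) :
    LinearMap.trace A ρ.V (ρ.ρ g) - chiHom S χ h ∈ IsLocalRing.maximalIdeal A ^ k := by
  have hp : p.Prime := Fact.out
  obtain ⟨E, hEfin, hE⟩ := exists_common_field hJ n
  obtain ⟨L, hLfin, hL⟩ := ρ.isAdicContinuous k
  have hM0 : p ^ n ≠ 0 := pow_ne_zero n hp.ne_zero
  have : NeZero ((p ^ n : ℕ) : AlgebraicClosure ℚ) := ⟨Nat.cast_ne_zero.mpr hM0⟩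
  obtain ⟨ζ, hζ⟩ := HasEnoughRootsOfUnity.exists_primitiveRoot (AlgebraicClosure ℚ) (p ^ n)
  have hζfin : FiniteDimensional ℚ (IntermediateField.adjoin ℚ {ζ}) :=
    IntermediateField.adjoin.finiteDimensional ((hζ.isIntegral (Nat.pos_of_ne_zero hM0)).tower_top)
  obtain ⟨F, hFfin, hFgal, hEF, hLF, hζF⟩ :=
    exists_galois_hull E L (IntermediateField.adjoin ℚ {ζ})
  have hζF' : ζ ∈ F := hζF (IntermediateField.mem_adjoin_simple_self ℚ ζ)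
  have hF : ∀ σ : GQ, (∀ a ∈ F, σ a = a) → ∀ x : J, p ^ n • x = 0 → σ • x = x :=
    fun σ h => hE σ fun a ha => h a (hEF ha)
  obtain ⟨ℓ, 𝔄, τ, m, hℓ, hℓS, h𝔄, hτ, hg⟩ := hcheb F S g
  have hℓNp := hgood ℓ hℓ hℓS
  have hℓN := hgoodN ℓ hℓ hℓS
  have hℓS' : ℓ ∉ (↑S : Set ℕ) := hℓS
  -- the Lucas polynomial represents `g`
  have hh' : lucasS (heckeGen ⟨ℓ, hℓ⟩) (ℓ : HeckeAlg) m ∈
      MvPolynomial.supported ℤ (outsideVars (↑S : Set ℕ)) := by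
    refine lucasS_mem_subalgebra _ ?_ (natCast_mem _ ℓ) m
    exact (MvPolynomial.X_mem_supported (R := ℤ)).mpr hℓS
  have hA' : Approx p J n g (lucasS (heckeGen ⟨ℓ, hℓ⟩) (ℓ : HeckeAlg) m) := by
    intro x hx
    have h1 := lucas_galois hJ n F hF hℓ hℓNp h𝔄 hτ m g hg hx
    have hζ1 : ζ ^ (p ^ n) = 1 := hζ.pow_eq_one
    have h2 : (τ ^ m) ζ = ζ ^ (ℓ ^ m) :=
      frob_pow_rootOfUnity 𝔄 (natCast_pow_not_mem_nonunits 𝔄 hp hℓ (ne_of_not_dvd_mul hℓNp) h𝔄 n)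
        hM0 hτ hζ1 m
    have h3 : g ζ = ζ ^ (ℓ ^ m) := by rw [← hg ζ hζF', h2]
    have he : cycE p n g ≡ ℓ ^ m [MOD p ^ n] := cycE_of_apply p n g _ hζ h3
    rw [nsmul_eq_of_modEq he (torsion_smul n g⁻¹ hx)]
    exact h1
  have huniq := approx_unique hG hG hh hh' hA hA'
  have huniq' : chiHom S χ h - chiHom S χ (lucasS (heckeGen ⟨ℓ, hℓ⟩) (ℓ : HeckeAlg) m) ∈
      IsLocalRing.maximalIdeal A ^ k := span_pow_le _ hpA k huniq
  -- the value of the Lucas polynomial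
  have hval : chiHom S χ (lucasS (heckeGen ⟨ℓ, hℓ⟩) (ℓ : HeckeAlg) m) =
      lucasS (χ (CuspForm.heckeAlgebra.T hℓ hℓN hℓS')) (ℓ : A) m := by
    have := lucasS_map (chiHom S χ) (heckeGen ⟨ℓ, hℓ⟩) (ℓ : HeckeAlg) m
    rw [map_natCast, chiHom_heckeGen S χ hℓ hℓN hℓS'] at this
    exact this
  have htr : LinearMap.trace A ρ.V (ρ.ρ (τ ^ m)) =
      lucasS (χ (CuspForm.heckeAlgebra.T hℓ hℓN hℓS')) (ℓ : A) m := by
    rw [map_pow]
    exact trace_pow_eq_lucasS ρ.finrank_eq (ρ.ρ τ) _ _ (hfrob ℓ hℓ hℓN hℓS' 𝔄 h𝔄 τ hτ) m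
  have hc := trace_congr_of_agree ρ k L hL (τ ^ m) g fun a ha => hg a (hLF ha)
  rw [htr, ← hval] at hc
  have hfinal : LinearMap.trace A ρ.V (ρ.ρ g) - chiHom S χ h =
      (LinearMap.trace A ρ.V (ρ.ρ g) -
          chiHom S χ (lucasS (heckeGen ⟨ℓ, hℓ⟩) (ℓ : HeckeAlg) m)) -
        (chiHom S χ h - chiHom S χ (lucasS (heckeGen ⟨ℓ, hℓ⟩) (ℓ : HeckeAlg) m)) := by
    ring
  rw [hfinal]
  exact sub_mem hc huniq'

end spec

section chi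

variable {M : ℕ} [NeZero M]

/-- the evaluation of the Hecke polynomials in the variables outside `S ⊇ primes(M)` is onto the
Hecke algebra away from `S` -/
theorem rtint_evalS_surjective (S : Set ℕ) (hMS : ∀ q : ℕ, q.Prime → q ∣ M → q ∈ S)
    (x : CuspForm.heckeAlgebra M 2 S) :
    ∃ t ∈ MvPolynomial.supported ℤ (outsideVars S), evalS M S t = x := by
  obtain ⟨x, hx⟩ := x
  have key : ∃ t ∈ MvPolynomial.supported ℤ (outsideVars S),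
      ((evalS M S t : CuspForm.heckeAlgebra M 2 S) :
        Module.End ℂ (CuspForm (Gamma0 M) 2)) = x := by
    unfold CuspForm.heckeAlgebra at hx
    induction hx using Algebra.adjoin_induction with
    | mem y hy =>
      rcases hy with ⟨ℓ, hℓ, hℓM, hℓS, rfl⟩ | ⟨r, hrM, hr, hrS, rfl⟩
      · refine ⟨heckeGen ⟨ℓ, hℓ⟩, (MvPolynomial.X_mem_supported (R := ℤ)).mpr hℓS, ?_⟩
        rw [evalS_heckeGen hℓ hℓM hℓS]
        rfl
      · exact absurd (hMS r hr hrM) hrS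
    | algebraMap r =>
      refine ⟨algebraMap ℤ HeckeAlg r, Subalgebra.algebraMap_mem _ r, ?_⟩
      rw [AlgHom.commutes]
      rfl
    | add y z _ _ hy hz =>
      obtain ⟨t, ht, hty⟩ := hy
      obtain ⟨u, hu, huz⟩ := hz
      refine ⟨t + u, Subalgebra.add_mem _ ht hu, ?_⟩
      rw [map_add, ← hty, ← huz]
      rfl
    | mul y z _ _ hy hz =>
      obtain ⟨t, ht, hty⟩ := hy
      obtain ⟨u, hu, huz⟩ := hz
      refine ⟨t * u, Subalgebra.mul_mem _ ht hu, ?_⟩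
      rw [map_mul, ← hty, ← huz]
      rfl
  obtain ⟨t, ht, htx⟩ := key
  exact ⟨t, ht, Subtype.ext htx⟩

/-- **the character of the Hecke algebra with prescribed values**: a system of values `a ℓ` in a
ring `A` which kills the kernel of the evaluation is the system of values of a ring
homomorphism `χ : 𝕋 → A` -/
theorem rtint_exists_chi {A : Type*} [CommRing A] (S : Finset ℕ)
    (hMS : ∀ q : ℕ, q.Prime → q ∣ M → q ∈ S) (a : Nat.Primes → A)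
    (hker : ∀ t ∈ MvPolynomial.supported ℤ (outsideVars (↑S : Set ℕ)),
      evalS M (↑S : Set ℕ) t = 0 → MvPolynomial.aeval a t = 0) :
    ∃ χ : CuspForm.heckeAlgebra M 2 (↑S : Set ℕ) →+* A,
      ∀ t ∈ MvPolynomial.supported ℤ (outsideVars (↑S : Set ℕ)),
        chiHom S χ t = MvPolynomial.aeval a t := by
  set R₀ : Subalgebra ℤ HeckeAlg := MvPolynomial.supported ℤ (outsideVars (↑S : Set ℕ)) with hR₀
  set e : R₀ →+* CuspForm.heckeAlgebra M 2 (↑S : Set ℕ) :=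
    (evalS M (↑S : Set ℕ)).toRingHom.comp R₀.val.toRingHom with he
  set g₀ : R₀ →+* A := (MvPolynomial.aeval a : HeckeAlg →ₐ[ℤ] A).toRingHom.comp R₀.val.toRingHom
    with hg₀
  have hsurj : Function.Surjective e := by
    intro x
    obtain ⟨t, ht, htx⟩ := rtint_evalS_surjective (↑S : Set ℕ)
      (fun q hq hqM => Finset.mem_coe.mpr (hMS q hq hqM)) x
    exact ⟨⟨t, ht⟩, htx⟩
  have hk : RingHom.ker e ≤ RingHom.ker g₀ := by
    intro t ht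
    rw [RingHom.mem_ker] at ht ⊢
    exact hker t.1 t.2 ht
  refine ⟨e.liftOfSurjective hsurj ⟨g₀, hk⟩, fun t ht => ?_⟩
  exact RingHom.liftOfSurjective_comp_apply e hsurj ⟨g₀, hk⟩ ⟨t, ht⟩

end chi

section nonEis

/-- the Lucas sequence of `(x + 1, x)` -/
theorem rtint_lucasS_eis {R : Type*} [CommRing R] (x : R) (m : ℕ) :
    lucasS (x + 1) x m = 1 + x ^ m := by
  induction m using Nat.twoStepInduction with
  | zero => rw [lucasS_zero, pow_zero]; norm_num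
  | one => rw [lucasS_one, pow_one, add_comm]
  | more j h0 h1 =>
    rw [lucasS_add_two, h0, h1]
    ring

/-- the Lucas sequence respects congruences in the first argument -/
theorem rtint_lucasS_congr {R : Type*} [CommRing R] (I : Ideal R) {a a' : R} (h : a - a' ∈ I)
    (d : R) (m : ℕ) : lucasS a d m - lucasS a' d m ∈ I := by
  rw [← Ideal.Quotient.eq, ← RingHom.coe_coe, lucasS_map, lucasS_map]
  rw [RingHom.coe_coe, Ideal.Quotient.eq.mpr h]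

/-- congruent natural numbers have congruent images -/
theorem rtint_natCast_sub_mem {R : Type*} [CommRing R] (I : Ideal R) {n : ℕ} (hn : (n : R) ∈ I)
    {a b : ℕ} (h : a ≡ b [MOD n]) : (a : R) - (b : R) ∈ I := by
  have h1 : (n : ℤ) ∣ (a : ℤ) - (b : ℤ) := (Int.natCast_modEq_iff.mpr h).symm.dvd
  obtain ⟨c, hc⟩ := h1
  have h2 : (a : R) - (b : R) = (n : R) * (c : R) := by
    have := congrArg (fun z : ℤ => (z : R)) hc
    simpa using this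
  rw [h2]
  exact I.mul_mem_right _ hn

variable {p : ℕ} [Fact p.Prime] {S : Finset ℕ} {A : Type} [CommRing A] [IsLocalRing A]

/-- if all the eigenvalues outside `S` are Eisenstein modulo `𝔪`, the trace is `1 + ε` modulo
`𝔪` -/
theorem rtint_trace_eis (hpS : p ∈ S) (hpA : (p : A) ∈ IsLocalRing.maximalIdeal A)
    (a : Nat.Primes → A) (ρ : GaloisRepAdic A)
    (hfrob : ∀ ℓ : Nat.Primes, (ℓ : ℕ) ∉ S →
      ∀ 𝔄 : ValuationSubring (AlgebraicClosure ℚ), 𝔄.LiesOverPrime ℓ →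
        ∀ σ : GQ, 𝔄.IsFrobeniusAt σ ℓ →
          LinearMap.charpoly (ρ.ρ σ) = X ^ 2 - C (a ℓ) * X + C (((ℓ : ℕ) : A)))
    (heis : ∀ ℓ : Nat.Primes, (ℓ : ℕ) ∉ S →
      a ℓ - (((ℓ : ℕ) : A) + 1) ∈ IsLocalRing.maximalIdeal A) (g : GQ) :
    LinearMap.trace A ρ.V (ρ.ρ g) - (1 + ((cycE p 1 g : ℕ) : A)) ∈
      IsLocalRing.maximalIdeal A := by
  have hp : p.Prime := Fact.out
  obtain ⟨L, hLfin, hL⟩ := ρ.isAdicContinuous 1
  have hM0 : p ^ 1 ≠ 0 := pow_ne_zero 1 hp.ne_zero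
  have : NeZero ((p ^ 1 : ℕ) : AlgebraicClosure ℚ) := ⟨Nat.cast_ne_zero.mpr hM0⟩
  obtain ⟨ζ, hζ⟩ := HasEnoughRootsOfUnity.exists_primitiveRoot (AlgebraicClosure ℚ) (p ^ 1)
  have hζfin : FiniteDimensional ℚ (IntermediateField.adjoin ℚ {ζ}) :=
    IntermediateField.adjoin.finiteDimensional ((hζ.isIntegral (Nat.pos_of_ne_zero hM0)).tower_top)
  obtain ⟨F, hFfin, hFgal, hLF, hζF, -⟩ :=
    exists_galois_hull L (IntermediateField.adjoin ℚ {ζ}) (IntermediateField.adjoin ℚ {ζ})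
  have hζF' : ζ ∈ F := hζF (IntermediateField.mem_adjoin_simple_self ℚ ζ)
  obtain ⟨ℓ, 𝔄, τ, m, hℓ, hℓS, h𝔄, hτ, hg⟩ := Fermat.Agent.Cheb.exists_frobenius_pow_eq F S g
  have hℓp : ℓ ≠ p := fun h => hℓS (h ▸ hpS)
  have h2 : (τ ^ m) ζ = ζ ^ (ℓ ^ m) :=
    frob_pow_rootOfUnity 𝔄 (natCast_pow_not_mem_nonunits 𝔄 hp hℓ hℓp h𝔄 1) hM0 hτ
      hζ.pow_eq_one m
  have h3 : g ζ = ζ ^ (ℓ ^ m) := by rw [← hg ζ hζF', h2]
  have he : cycE p 1 g ≡ ℓ ^ m [MOD p ^ 1] := cycE_of_apply p 1 g _ hζ h3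
  have hp1 : ((p ^ 1 : ℕ) : A) ∈ IsLocalRing.maximalIdeal A := by
    rw [pow_one]
    exact hpA
  have hcyc : ((cycE p 1 g : ℕ) : A) - ((ℓ ^ m : ℕ) : A) ∈ IsLocalRing.maximalIdeal A :=
    rtint_natCast_sub_mem _ hp1 he
  have htr : LinearMap.trace A ρ.V (ρ.ρ (τ ^ m)) = lucasS (a ⟨ℓ, hℓ⟩) (ℓ : A) m := by
    rw [map_pow]
    exact trace_pow_eq_lucasS ρ.finrank_eq (ρ.ρ τ) _ _ (hfrob ⟨ℓ, hℓ⟩ hℓS 𝔄 h𝔄 τ hτ) m
  have hc := trace_congr_of_agree ρ 1 L hL (τ ^ m) g fun x hx => hg x (hLF hx)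
  rw [pow_one, htr] at hc
  have hl : lucasS (a ⟨ℓ, hℓ⟩) (ℓ : A) m - (1 + (ℓ : A) ^ m) ∈ IsLocalRing.maximalIdeal A := by
    rw [← rtint_lucasS_eis (ℓ : A) m]
    exact rtint_lucasS_congr _ (heis ⟨ℓ, hℓ⟩ hℓS) _ m
  have hfinal : LinearMap.trace A ρ.V (ρ.ρ g) - (1 + ((cycE p 1 g : ℕ) : A)) =
      (LinearMap.trace A ρ.V (ρ.ρ g) - lucasS (a ⟨ℓ, hℓ⟩) (ℓ : A) m) +
        (lucasS (a ⟨ℓ, hℓ⟩) (ℓ : A) m - (1 + (ℓ : A) ^ m)) -
        (((cycE p 1 g : ℕ) : A) - ((ℓ ^ m : ℕ) : A)) := by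
    push_cast
    ring
  rw [hfinal]
  exact sub_mem (add_mem hc hl) hcyc

/-- **non-Eisenstein**: a representation with the Eichler–Shimura characteristic polynomials
whose residual representation is absolutely irreducible has an eigenvalue `a ℓ₀`, `ℓ₀ ∉ S`, with
`a ℓ₀ - (ℓ₀ + 1)` a unit -/
theorem rtint_exists_nonEis (hpS : p ∈ S) (hpA : (p : A) ∈ IsLocalRing.maximalIdeal A)
    (a : Nat.Primes → A) (ρ : GaloisRepAdic A)
    (hfrob : ∀ ℓ : Nat.Primes, (ℓ : ℕ) ∉ S →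
      ∀ 𝔄 : ValuationSubring (AlgebraicClosure ℚ), 𝔄.LiesOverPrime ℓ →
        ∀ σ : GQ, 𝔄.IsFrobeniusAt σ ℓ →
          LinearMap.charpoly (ρ.ρ σ) = X ^ 2 - C (a ℓ) * X + C (((ℓ : ℕ) : A)))
    (habs : ρ.residual.IsAbsolutelyIrreducible) :
    ∃ ℓ₀ : Nat.Primes, (ℓ₀ : ℕ) ∉ S ∧
      a ℓ₀ - (((ℓ₀ : ℕ) : A) + 1) ∉ IsLocalRing.maximalIdeal A := by
  by_contra hcon
  have heis : ∀ ℓ : Nat.Primes, (ℓ : ℕ) ∉ S →
      a ℓ - (((ℓ : ℕ) : A) + 1) ∈ IsLocalRing.maximalIdeal A := by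
    intro ℓ hℓ
    by_contra h
    exact hcon ⟨ℓ, hℓ, h⟩
  obtain ⟨g₁, g₂, g₃, hU⟩ := Fermat.Agent.S32.exists_unit_trace ρ habs
  apply hU
  have h1 := rtint_trace_eis hpS hpA a ρ hfrob heis (g₁ * g₂ * g₃)
  have h2 := rtint_trace_eis hpS hpA a ρ hfrob heis (g₂ * g₁ * g₃)
  have hc : cycE p 1 (g₁ * g₂ * g₃) = cycE p 1 (g₂ * g₁ * g₃) := by
    unfold cycE
    rw [map_mul, map_mul, map_mul, map_mul, mul_comm (padicCyclo p g₁)]
  rw [hc] at h1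
  have := sub_mem h1 h2
  rwa [sub_sub_sub_cancel_right] at this

end nonEis

/-- **K8-GLUE at one `(p, M, g, q, S)`**: K8 from the geometric clause **(G)** there. -/
theorem rtint_k8_at {p : ℕ} [Fact p.Prime] {M : ℕ} [NeZero M] {g : CuspForm (Gamma0 M) 2}
    (hg : g.IsNewform) {q : ℕ} (hq : q.Prime) (hqp : q ≠ p) {S : Finset ℕ} (hpS : p ∈ S)
    (hMS : ∀ r : ℕ, r.Prime → r ∣ M → r ∈ S)
    (hgeo : ∀ ℓ₀ : Nat.Primes, (ℓ₀ : ℕ) ∉ S →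
      heckeValue g (MvPolynomial.X ℓ₀ - MvPolynomial.C (((ℓ₀ : ℕ) : ℤ) + 1)) ≠ 0 →
      K8GeoAt p M g q S)
    {A : Type} [CommRing A] [IsLocalRing A] [IsDomain A] [CharZero A] [IsNoetherianRing A]
    (hpA : (p : A) ∈ IsLocalRing.maximalIdeal A) (a : Nat.Primes → A)
    (hconj : ∀ t ∈ MvPolynomial.supported ℤ (outsideVars (↑S : Set ℕ)),
      heckeValue g t = 0 ↔ MvPolynomial.aeval a t = 0)
    (ρ : GaloisRepAdic A)
    (hfrob : ∀ ℓ : Nat.Primes, (ℓ : ℕ) ∉ S →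
      ∀ 𝔄 : ValuationSubring (AlgebraicClosure ℚ), 𝔄.LiesOverPrime ℓ →
        ∀ σ : AlgebraicClosure ℚ ≃ₐ[ℚ] AlgebraicClosure ℚ, 𝔄.IsFrobeniusAt σ ℓ →
          LinearMap.charpoly (ρ.ρ σ) = X ^ 2 - C (a ℓ) * X + C (((ℓ : ℕ) : A)))
    (habs : ρ.residual.IsAbsolutelyIrreducible) :
    ¬ ρ.IsUnramifiedAt q := by
  intro hunr
  have hp : p.Prime := Fact.out
  -- `g` is not Eisenstein
  obtain ⟨ℓ₀, hℓ₀S, hℓ₀⟩ := rtint_exists_nonEis hpS hpA a ρ hfrob habs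
  have hℓ₀X : (MvPolynomial.X ℓ₀ - MvPolynomial.C (((ℓ₀ : ℕ) : ℤ) + 1) : HeckeAlg) ∈
      MvPolynomial.supported ℤ (outsideVars (↑S : Set ℕ)) :=
    Subalgebra.sub_mem _ ((MvPolynomial.X_mem_supported (R := ℤ)).mpr
      (by exact_mod_cast hℓ₀S)) (Subalgebra.algebraMap_mem _ _)
  have hℓ₀g : heckeValue g (MvPolynomial.X ℓ₀ - MvPolynomial.C (((ℓ₀ : ℕ) : ℤ) + 1)) ≠ 0 := by
    intro h0
    have h1 := (hconj _ hℓ₀X).mp h0
    rw [map_sub, MvPolynomial.aeval_X, MvPolynomial.aeval_C, eq_intCast] at h1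
    apply hℓ₀
    have h2 : a ℓ₀ - (((ℓ₀ : ℕ) : A) + 1) = 0 := by
      rw [← h1]
      push_cast
      ring
    rw [h2]
    exact Ideal.zero_mem _
  obtain ⟨J, _, _, _, hJ, hF, 𝔄, φ, h𝔄, hφ, C₀, hC₀, hC₀g, hC₀x⟩ := hgeo ℓ₀ hℓ₀S hℓ₀g
  have hgoodN : ∀ r : ℕ, r.Prime → r ∉ S → ¬ r ∣ M := fun r hr hrS h => hrS (hMS r hr h)
  have hgood : ∀ r : ℕ, r.Prime → r ∉ S → ¬ r ∣ M * p := by
    intro r hr hrS h
    rcases (Nat.Prime.dvd_mul hr).mp h with h | h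
    · exact hrS (hMS r hr h)
    · rw [(Nat.prime_dvd_prime_iff_eq hr hp).mp h] at hrS
      exact hrS hpS
  -- the eigencharacter of `g`
  obtain ⟨chig, hchig, -⟩ := Fermat.Agent.S58.s58g_exists_chig g hg.1 S hMS ⊤
    (fun _ _ _ _ => Subring.mem_top _)
  have hchigeq : ∀ t ∈ MvPolynomial.supported ℤ (outsideVars (↑S : Set ℕ)),
      chig (evalS M (↑S : Set ℕ) t) = heckeValue g t := fun t ht =>
    Fermat.Agent.STB.stb_p1_chig_eq (↑S : Set ℕ) (fun ℓ hℓ hℓS => hgoodN ℓ hℓ hℓS) chig hchig ht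
  -- the character `χ` with values `a`
  obtain ⟨χ, hχ⟩ := rtint_exists_chi (M := M) S hMS a (fun t ht h0 =>
    (hconj t ht).mp (by rw [← hchigeq t ht, h0, map_zero]))
  have hχT : ∀ (ℓ : ℕ) (hℓ : ℓ.Prime) (hℓM : ¬ ℓ ∣ M) (hℓS : ℓ ∉ (↑S : Set ℕ)),
      χ (CuspForm.heckeAlgebra.T hℓ hℓM hℓS) = a ⟨ℓ, hℓ⟩ := by
    intro ℓ hℓ hℓM hℓS
    rw [← chiHom_heckeGen S χ hℓ hℓM hℓS]
    exact (hχ (heckeGen ⟨ℓ, hℓ⟩) ((MvPolynomial.X_mem_supported (R := ℤ)).mpr hℓS)).trans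
      (MvPolynomial.aeval_X a _)
  have hfrob' : ∀ (ℓ : ℕ) (hℓ : ℓ.Prime) (hℓN : ¬ ℓ ∣ M) (hℓS : ℓ ∉ (↑S : Set ℕ)),
      ∀ 𝔅 : ValuationSubring (AlgebraicClosure ℚ), 𝔅.LiesOverPrime ℓ →
        ∀ σ : GQ, 𝔅.IsFrobeniusAt σ ℓ →
          LinearMap.charpoly (ρ.ρ σ) =
            X ^ 2 - C (χ (CuspForm.heckeAlgebra.T hℓ hℓN hℓS)) * X + C ((ℓ : A)) := by
    intro ℓ hℓ hℓN hℓS 𝔅 h𝔅 σ hσ
    rw [hχT ℓ hℓ hℓN hℓS]
    exact hfrob ⟨ℓ, hℓ⟩ hℓS 𝔅 h𝔅 σ hσ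
  -- (U′)
  obtain ⟨g₁, g₂, g₃, hU⟩ := Fermat.Agent.S32.exists_unit_trace ρ habs
  have hU' : LinearMap.trace A ρ.V (ρ.ρ (g₁ * g₂ * g₃)) ≠
      LinearMap.trace A ρ.V (ρ.ρ (g₂ * g₁ * g₃)) := by
    intro h
    rw [h, sub_self] at hU
    exact hU (Ideal.zero_mem _)
  -- (G)
  have hG : Fermat.Agent.RT.K8.GeoClause p J S χ q 𝔄 φ := by
    refine ⟨C₀, hC₀, ?_, hC₀x⟩
    rw [hχ C₀ hC₀]
    exact fun h => hC₀g ((hconj C₀ hC₀).mpr h)
  obtain ⟨σ, hσ, γ, hne⟩ := Fermat.Agent.RT.K8.stmtK8Abs p M J S A χ hpA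
    Fermat.Agent.Cheb.weakChebotarev_holds hJ hF hgoodN hgood
    (fun γ => LinearMap.trace A ρ.V (ρ.ρ γ))
    (fun γ k n h hGd hh hA =>
      rtint_trace_spec Fermat.Agent.Cheb.weakChebotarev_holds hJ hgoodN hgood hpA χ ρ hfrob'
        γ k n h hGd hh hA)
    ⟨g₁, g₂, g₃, hU'⟩ q hq hqp 𝔄 h𝔄 φ hφ hG
  apply hne
  show LinearMap.trace A ρ.V (ρ.ρ (γ * σ)) = LinearMap.trace A ρ.V (ρ.ρ γ)
  rw [map_mul, hunr 𝔄 h𝔄 σ hσ, mul_one]

/-- **K8-GLUE**: the consumer form of K8 from the geometric clause **(G)**. -/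
theorem rtint_k8_of_geo (hgeo : StmtK8Geo) : StmtK8 := by
  intro p hp hp5 M _ g hg q hq hqp hq2' hqM hq2 S hpS hMS A _ _ _ _ _ hpA a hconj ρ hfrob habs
  have : Fact p.Prime := ⟨hp⟩
  exact rtint_k8_at hg hq hqp hpS hMS
    (fun ℓ₀ hℓ₀S hℓ₀g => hgeo p hp5 M g hg q hq hqp hq2' hqM hq2 S hpS hMS ℓ₀ hℓ₀S hℓ₀g)
    hpA a hconj ρ hfrob habs

/-- **K8-GLUE, restricted form** (`5 ≤ q`): `StmtK8GeoE → StmtK8E`. -/
theorem rtint_k8E_of_geoE (hgeo : StmtK8GeoE) : StmtK8E := by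
  intro p hp hp5 M _ g hg q hq hqp hq2' hqM hq2 hq5 S hpS hMS A _ _ _ _ _ hpA a hconj ρ hfrob
    habs
  have : Fact p.Prime := ⟨hp⟩
  exact rtint_k8_at hg hq hqp hpS hMS
    (fun ℓ₀ hℓ₀S hℓ₀g => hgeo p hp5 M g hg q hq hqp hq2' hqM hq2 hq5 S hpS hMS ℓ₀ hℓ₀S hℓ₀g)
    hpA a hconj ρ hfrob habs

/-- **`StmtTR` from (G) (restricted form) and the base contract.** -/
theorem rtint_stmtTR_of_geoE (hgeo : StmtK8GeoE) (hBase : StmtBase) :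
    Fermat.Agent.RIB.StmtTR :=
  rtint_stmtTRE (rtint_k8E_of_geoE hgeo) hBase

end Fermat.Agent.RT.Interp
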