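import Mathlib
import Fermat.Prelude.Def_FLTPrelim_Modularity
import Fermat.Agent.EC.VarChange

/-!
# K-machine, piece INTERP (helper46), layer A1: an integral model that is bad at prescribed primes

`ModularRepOfLevel M` asks for the congruence `a_ℓ(f) ≡ a_ℓ(W)` at all primes `ℓ ∤ M p` that are
GOOD for the chosen integral model `W`.  When the level is lowered from `N` to `M ∣ N` the
congruence at the primes `ℓ ∣ N`, `ℓ ∤ M` is not known a priori; it is avoided by replacing `W` by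
the model `rtintScale W u` (`a_i ↦ u^i a_i`, `Δ ↦ u¹² Δ`) with `u = N`: it is again an integral
model of the same curve, all primes dividing `u` are bad for it, and at its good primes `ℓ` the
number `a_ℓ` is unchanged (the reductions differ by the change of variables `ū`).

* `rtintScale_Δ`, `rtintScale_map`, `rtintScale_isIntegralModelOf`
* `rtintScale_isGoodPrimeFor_iff`, `rtintScale_apOfModel`
-/

set_option autoImplicit false

namespace Fermat.Agent.RT.Interp

open WeierstrassCurve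

/-- the model `y² + u a₁ x y + u³ a₃ y = x³ + u² a₂ x² + u⁴ a₄ x + u⁶ a₆`. -/
def rtintScale (W : WeierstrassCurve ℤ) (u : ℤ) : WeierstrassCurve ℤ :=
  ⟨u * W.a₁, u ^ 2 * W.a₂, u ^ 3 * W.a₃, u ^ 4 * W.a₄, u ^ 6 * W.a₆⟩

theorem rtintScale_Δ (W : WeierstrassCurve ℤ) (u : ℤ) :
    (rtintScale W u).Δ = u ^ 12 * W.Δ := by
  simp only [WeierstrassCurve.Δ, WeierstrassCurve.b₂, WeierstrassCurve.b₄, WeierstrassCurve.b₆,
    WeierstrassCurve.b₈, rtintScale]
  ring

/-- the change of variables `(x, y) ↦ (v² x, v³ y)` with `v = 1/φ(u)`. -/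
noncomputable def rtintVC {F : Type*} [Field F] (φ : ℤ →+* F) (u : ℤ) (hu : φ u ≠ 0) :
    VariableChange F :=
  ⟨(Units.mk0 (φ u) hu)⁻¹, 0, 0, 0⟩

theorem rtintScale_map {F : Type*} [Field F] (W : WeierstrassCurve ℤ) (u : ℤ) (φ : ℤ →+* F)
    (hu : φ u ≠ 0) :
    (rtintScale W u).map φ = rtintVC φ u hu • W.map φ := by
  ext <;>
    simp [rtintScale, rtintVC, WeierstrassCurve.map, variableChange_a₁, variableChange_a₂,
      variableChange_a₃, variableChange_a₄, variableChange_a₆]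

theorem rtintScale_isIntegralModelOf {W : WeierstrassCurve ℤ} {E : WeierstrassCurve ℚ} {u : ℤ}
    (hu : u ≠ 0) (h : W.IsIntegralModelOf E) : (rtintScale W u).IsIntegralModelOf E := by
  obtain ⟨C, hC⟩ := h
  have hu' : (Int.castRingHom ℚ) u ≠ 0 := by simpa using hu
  refine ⟨rtintVC (Int.castRingHom ℚ) u hu' * C, ?_⟩
  rw [mul_smul, hC, rtintScale_map W u _ hu']

theorem rtintScale_isGoodPrimeFor_iff (W : WeierstrassCurve ℤ) (u : ℤ) {ℓ : ℕ} (hℓ : ℓ.Prime) :
    (rtintScale W u).IsGoodPrimeFor ℓ ↔ ¬ (ℓ : ℤ) ∣ u ∧ W.IsGoodPrimeFor ℓ := by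
  unfold WeierstrassCurve.IsGoodPrimeFor
  rw [rtintScale_Δ]
  have hp : Prime (ℓ : ℤ) := Nat.prime_iff_prime_int.mp hℓ
  constructor
  · intro h
    exact ⟨fun hd => h (Dvd.dvd.mul_right (dvd_pow hd (by norm_num)) _),
      fun hd => h (Dvd.dvd.mul_left hd _)⟩
  · rintro ⟨h1, h2⟩ hd
    rcases hp.dvd_or_dvd hd with h | h
    · exact h1 (hp.dvd_of_dvd_pow h)
    · exact h2 h

/-- at a prime `ℓ ∤ u` the reductions of `W` and of `rtintScale W u` have the same number of
points, hence the same `a_ℓ`. -/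
theorem rtintScale_apOfModel (W : WeierstrassCurve ℤ) (u : ℤ) {ℓ : ℕ} (hℓ : ℓ.Prime)
    (hu : ¬ (ℓ : ℤ) ∣ u) : (rtintScale W u).apOfModel ℓ = W.apOfModel ℓ := by
  have : Fact ℓ.Prime := ⟨hℓ⟩
  have hu' : (Int.castRingHom (ZMod ℓ)) u ≠ 0 := by
    simpa [ZMod.intCast_zmod_eq_zero_iff_dvd] using hu
  have hred : (rtintScale W u).reductionMod ℓ =
      rtintVC (Int.castRingHom (ZMod ℓ)) u hu' • W.reductionMod ℓ :=
    rtintScale_map W u _ hu'
  unfold WeierstrassCurve.apOfModel WeierstrassCurve.traceOfFrobenius WeierstrassCurve.card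
  rw [hred]
  rw [Nat.card_congr (Fermat.Agent.EC.vcEquiv (W.reductionMod ℓ)
    (rtintVC (Int.castRingHom (ZMod ℓ)) u hu')).toEquiv]

end Fermat.Agent.RT.Interp
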