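import Fermat.Agent.STB.NewPoly
import Fermat.Agent.S49.LyingOver

/-!
# K-machine, piece INTERP (helper46), layer B: from a characteristic-zero point to an eigenform

* `rtint_exists_eigenform` : every character `χ : A → ℂ` of a ring of Hecke polynomials that
  factors through the Hecke algebra of `S₂(Γ₀(N))` is the eigensystem of a normalised eigenform
  (eigenvector of the full Hecke algebra + Galois conjugation, from the STB-P1 toolbox).
* `rtint_exists_embedding` : a domain of characteristic zero that is integral over `ℤ` embeds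
  into `ℂ`.
* `rtint_point` : a system `a : Nat.Primes → A` of Hecke eigenvalues in a local domain `A` of
  characteristic zero and residue characteristic `p` which OCCURS in `S₂(Γ₀(N))` (every Hecke
  polynomial in the variables outside `S` that kills `S₂(Γ₀(N))` vanishes at `a`) comes from a
  normalised eigenform `f` of level `N`: there are an injective `e : ℤ[a] → ℂ` with
  `a_ℓ(f) = e (a ℓ)` and a maximal ideal `𝔪'` of `ℤ̄` over `p` such that `e b ∈ 𝔪'` whenever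
  `b ∈ 𝔪_A`.
-/

set_option autoImplicit false

noncomputable section

namespace Fermat.Agent.RT.Interp

open ModularCurve Fermat.Agent.S31 ModularFormClass CongruenceSubgroup

/-- **Every character of the Hecke algebra is the eigensystem of a normalised eigenform.** -/
theorem rtint_exists_eigenform {N : ℕ} [NeZero N] {A : Type*} [CommRing A]
    (ι : A →+* CuspForm.heckeAlgebra N 2 ∅) (χ : A →+* ℂ)
    (hker : RingHom.ker ι ≤ RingHom.ker χ) :
    ∃ f : CuspForm (Gamma0 N) 2, f.IsNormalizedEigenform ∧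
      ∀ (a : A) (ℓ : ℕ) (hℓ : ℓ.Prime) (hℓN : ¬ ℓ ∣ N),
        ι a = CuspForm.heckeAlgebra.T hℓ hℓN (Set.notMem_empty ℓ) → qCoeff ⇑f ℓ = χ a := by
  classical
  have hfin : Module.Finite ℤ (CuspForm.heckeAlgebra N 2 ∅) :=
    Fermat.Agent.S22.moduleFinite_heckeAlgebra N 2 ∅
  have hfd : FiniteDimensional ℂ (CuspForm (Gamma0 N) 2) :=
    Fermat.Agent.S49.finiteDimensional_cuspForm N 2
  obtain ⟨v, ψ, hv, hψ, hkψ⟩ := Fermat.Agent.STB.stb_p1_abstract ι
    ((CuspForm.heckeAlgebra N 2 ∅).val.toRingHom) Subtype.val_injective χ hker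
  obtain ⟨f, hf, hfq⟩ := Fermat.Agent.S49.exists_normalized_eigenform v hv ψ hψ
  have hint : ∀ a, IsIntegral ℤ ((ψ.comp ι) a) := fun a =>
    map_isIntegral_int ψ (Algebra.IsIntegral.isIntegral (ι a))
  obtain ⟨σ, hσ⟩ := Fermat.Agent.STB.stb_p1_exists_sigma (ψ.comp ι) χ hint hkψ
  obtain ⟨f₁, hf₁, hf₁q⟩ := Fermat.Agent.STB.stb_p1_conj_eigenform (σ : ℂ →+* ℂ) f hf
  refine ⟨f₁, hf₁, fun a ℓ hℓ hℓN ha => ?_⟩
  rw [hf₁q, hfq ℓ hℓ hℓN, ← ha]
  exact hσ a

/-- A domain of characteristic zero that is integral over `ℤ` embeds into `ℂ`. -/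
theorem rtint_exists_embedding (B : Type*) [CommRing B] [IsDomain B] [CharZero B]
    (hint : ∀ b : B, (Int.castRingHom B).IsIntegralElem b) :
    ∃ e : B →+* ℂ, Function.Injective e := by
  classical
  have : Algebra.IsIntegral ℤ B := ⟨fun b => hint b⟩
  let K := FractionRing B
  have : CharZero K := charZero_of_injective_algebraMap (IsFractionRing.injective B K)
  let _ : Algebra ℚ K := DivisionRing.toRatAlgebra
  have : Algebra.IsAlgebraic ℤ K :=
    (IsFractionRing.isAlgebraic_iff' ℤ B K).mp inferInstance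
  have : Algebra.IsAlgebraic ℚ K := by
    refine ⟨fun x => ?_⟩
    obtain ⟨P, hP0, hP⟩ := Algebra.IsAlgebraic.isAlgebraic (R := ℤ) x
    refine ⟨P.map (Int.castRingHom ℚ), ?_, ?_⟩
    · rwa [Ne, Polynomial.map_eq_zero_iff Int.cast_injective]
    · rw [Polynomial.aeval_def, Polynomial.eval₂_map]
      have hc : (algebraMap ℚ K).comp (Int.castRingHom ℚ) = algebraMap ℤ K :=
        RingHom.ext_int _ _
      rw [hc]
      exact hP
  let φ : K →ₐ[ℚ] ℂ := IsAlgClosed.lift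
  refine ⟨(φ : K →+* ℂ).comp (algebraMap B K), ?_⟩
  exact (φ : K →+* ℂ).injective.comp (IsFractionRing.injective B K)

/-- integrality passes to a quotient through which a character factors -/
theorem rtint_isIntegral_quotient {R 𝕋 : Type*} [CommRing R] [CommRing 𝕋]
    [Algebra.IsIntegral ℤ 𝕋] (ι : R →+* 𝕋) (I : Ideal R) (hker : RingHom.ker ι ≤ I)
    (x : R ⧸ I) : (Int.castRingHom (R ⧸ I)).IsIntegralElem x := by
  obtain ⟨r, rfl⟩ := Ideal.Quotient.mk_surjective x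
  obtain ⟨P, hP, hPr⟩ := Algebra.IsIntegral.isIntegral (R := ℤ) (ι r)
  refine ⟨P, hP, ?_⟩
  have h1 : ι (Polynomial.eval₂ (Int.castRingHom R) r P) = 0 := by
    rw [Polynomial.hom_eval₂]
    have hc : ι.comp (Int.castRingHom R) = algebraMap ℤ 𝕋 := RingHom.ext_int _ _
    rw [hc]
    exact hPr
  have h2 : Polynomial.eval₂ (Int.castRingHom R) r P ∈ I := hker h1
  have h3 : Ideal.Quotient.mk I (Polynomial.eval₂ (Int.castRingHom R) r P) = 0 :=
    Ideal.Quotient.eq_zero_iff_mem.mpr h2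
  rw [Polynomial.hom_eval₂] at h3
  have hc : (Ideal.Quotient.mk I).comp (Int.castRingHom R) = Int.castRingHom (R ⧸ I) :=
    RingHom.ext_int _ _
  rw [hc] at h3
  exact h3

/-- the embedding and the maximal ideal, for an abstract domain `T` integral over `ℤ` -/
theorem rtint_point_core {T A : Type*} [CommRing T] [IsDomain T] [CharZero T]
    (hint : ∀ x : T, (Int.castRingHom T).IsIntegralElem x)
    [CommRing A] [IsLocalRing A] (κ : T →+* A) {p : ℕ} (hp : p.Prime)
    (hpA : (p : A) ∈ IsLocalRing.maximalIdeal A) :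
    ∃ (e : T →+* ℂ) (𝔪' : Ideal (integralClosure ℤ ℂ)), Function.Injective e ∧ 𝔪'.IsMaximal ∧
      (p : integralClosure ℤ ℂ) ∈ 𝔪' ∧
      ∀ x : T, κ x ∈ IsLocalRing.maximalIdeal A →
        ∀ b : integralClosure ℤ ℂ, (b : ℂ) = e x → b ∈ 𝔪' := by
  classical
  have hTint : Algebra.IsIntegral ℤ T := ⟨fun b => hint b⟩
  obtain ⟨e, he⟩ := rtint_exists_embedding T hint
  obtain ⟨𝔪₁, h𝔪₁⟩ : ∃ 𝔪₁ : Ideal T, 𝔪₁ = (IsLocalRing.maximalIdeal A).comap κ := ⟨_, rfl⟩
  have h𝔪₁prime : 𝔪₁.IsPrime := h𝔪₁ ▸ Ideal.comap_isPrime κ _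
  have hp𝔪₁ : ((p : ℤ) : T) ∈ 𝔪₁ := by
    rw [h𝔪₁, Ideal.mem_comap, map_intCast]
    exact_mod_cast hpA
  have h𝔪₁max : 𝔪₁.IsMaximal := by
    apply Ideal.isMaximal_of_isIntegral_of_isMaximal_comap (R := ℤ) 𝔪₁
    have hpr : (𝔪₁.comap (algebraMap ℤ T)).IsPrime := Ideal.comap_isPrime _ _
    apply hpr.isMaximal
    intro hbot
    have hmem : (p : ℤ) ∈ 𝔪₁.comap (algebraMap ℤ T) := by
      rw [Ideal.mem_comap, eq_intCast]
      exact hp𝔪₁
    rw [hbot, Ideal.mem_bot] at hmem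
    exact hp.ne_zero (by exact_mod_cast hmem)
  obtain ⟨ψ', 𝔪', hψ', h𝔪'max, h𝔪'⟩ := Fermat.Agent.S49.exists_maximal_over e 𝔪₁
    (fun x hx => by
      rw [RingHom.mem_ker] at hx
      rw [he (hx.trans (map_zero e).symm)]
      exact 𝔪₁.zero_mem)
  refine ⟨e, 𝔪', he, h𝔪'max, ?_, ?_⟩
  · have h1 : ψ' ((p : ℤ) : T) ∈ 𝔪' := by
      have : ((p : ℤ) : T) ∈ 𝔪'.comap ψ' := h𝔪'.symm ▸ hp𝔪₁
      exact this
    rw [map_intCast] at h1
    exact_mod_cast h1
  · intro x hx b hb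
    have h1 : x ∈ 𝔪₁ := by
      rw [h𝔪₁, Ideal.mem_comap]
      exact hx
    have h2 : ψ' x ∈ 𝔪' := by
      have : x ∈ 𝔪'.comap ψ' := h𝔪'.symm ▸ h1
      exact this
    have h3 : b = ψ' x := by
      apply Subtype.ext
      rw [hb, hψ']
    rw [h3]
    exact h2

section point

variable {N : ℕ} [NeZero N]

/-- **From a characteristic-zero point to an eigenform.**  `A` a local domain of characteristic
zero with `p ∈ 𝔪_A`; `a : Nat.Primes → A` a system of eigenvalues which occurs in `S₂(Γ₀(N))`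
(`hocc`).  Then there are a normalised eigenform `f` of level `N` and a maximal ideal `𝔪'` of
`ℤ̄` over `p` with
* (CONJ) a Hecke polynomial outside `S` vanishes at the eigenvalues of `f` iff it vanishes at
  `a`;
* (CONG) if the value at `a` of a Hecke polynomial outside `S` is in `𝔪_A` then its value at the
  eigenvalues of `f` is in `𝔪'`. -/
theorem rtint_point (S : Set ℕ) (hNS : ∀ ℓ : ℕ, ℓ.Prime → ℓ ∣ N → ℓ ∈ S)
    {A : Type*} [CommRing A] [IsLocalRing A] [IsDomain A] [CharZero A]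
    {p : ℕ} (hp : p.Prime) (hpA : (p : A) ∈ IsLocalRing.maximalIdeal A)
    (a : Nat.Primes → A)
    (hocc : ∀ t ∈ MvPolynomial.supported ℤ (outsideVars S),
      CuspForm.heckeEvalForms N 2 t = 0 → MvPolynomial.aeval a t = 0) :
    ∃ (f : CuspForm (Gamma0 N) 2) (𝔪' : Ideal (integralClosure ℤ ℂ)),
      f.IsNormalizedEigenform ∧ 𝔪'.IsMaximal ∧ (p : integralClosure ℤ ℂ) ∈ 𝔪' ∧
      (∀ t ∈ MvPolynomial.supported ℤ (outsideVars S),
        Fermat.Agent.ES.heckeValue f t = 0 ↔ MvPolynomial.aeval a t = 0) ∧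
      (∀ t ∈ MvPolynomial.supported ℤ (outsideVars S),
        MvPolynomial.aeval a t ∈ IsLocalRing.maximalIdeal A →
          ∀ b : integralClosure ℤ ℂ, (b : ℂ) = Fermat.Agent.ES.heckeValue f t → b ∈ 𝔪') := by
  classical
  obtain ⟨R, hR⟩ : ∃ R : Subalgebra ℤ HeckeAlg,
      R = MvPolynomial.supported ℤ (outsideVars S) := ⟨_, rfl⟩
  obtain ⟨ι, hι⟩ : ∃ ι : R →+* CuspForm.heckeAlgebra N 2 ∅,
      ∀ r : R, ι r = CuspForm.heckeEvalForms N 2 (r : HeckeAlg) :=
    ⟨(CuspForm.heckeEvalForms N 2).comp R.val.toRingHom, fun r => rfl⟩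
  obtain ⟨χA, hχA⟩ : ∃ χA : R →+* A, ∀ r : R, χA r = MvPolynomial.aeval a (r : HeckeAlg) :=
    ⟨((MvPolynomial.aeval a : HeckeAlg →ₐ[ℤ] A) : HeckeAlg →+* A).comp R.val.toRingHom,
      fun r => rfl⟩
  have hkerA : RingHom.ker ι ≤ RingHom.ker χA := by
    intro r hr
    rw [RingHom.mem_ker] at hr ⊢
    rw [hχA]
    rw [hι] at hr
    exact hocc (r : HeckeAlg) (hR ▸ r.2) hr
  have hfin : Module.Finite ℤ (CuspForm.heckeAlgebra N 2 ∅) :=
    Fermat.Agent.S22.moduleFinite_heckeAlgebra N 2 ∅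
  have hprime : (RingHom.ker χA).IsPrime := RingHom.ker_isPrime χA
  -- the quotient `T = R / ker χA`
  have hTint : ∀ x : R ⧸ RingHom.ker χA,
      (Int.castRingHom (R ⧸ RingHom.ker χA)).IsIntegralElem x :=
    rtint_isIntegral_quotient ι (RingHom.ker χA) hkerA
  have hTdom : IsDomain (R ⧸ RingHom.ker χA) := Ideal.Quotient.isDomain _
  obtain ⟨κ, hκ⟩ : ∃ κ : R ⧸ RingHom.ker χA →+* A, κ = RingHom.kerLift χA := ⟨_, rfl⟩
  have hκinj : Function.Injective κ := hκ ▸ RingHom.kerLift_injective χA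
  have hκmk : ∀ r : R, κ (Ideal.Quotient.mk _ r) = χA r := fun r => by
    rw [hκ]; exact RingHom.kerLift_mk χA r
  have hTchar : CharZero (R ⧸ RingHom.ker χA) := by
    refine ⟨fun m n hmn => ?_⟩
    have := congrArg κ hmn
    rw [map_natCast, map_natCast] at this
    exact Nat.cast_injective this
  obtain ⟨e, 𝔪', he, h𝔪'max, hp𝔪', hcong⟩ := rtint_point_core hTint κ hp hpA
  -- the complex character
  obtain ⟨χ, hχ⟩ : ∃ χ : R →+* ℂ, ∀ r, χ r = e (Ideal.Quotient.mk _ r) :=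
    ⟨e.comp (Ideal.Quotient.mk _), fun r => rfl⟩
  have hker : RingHom.ker ι ≤ RingHom.ker χ := by
    intro r hr
    have h1 : r ∈ RingHom.ker χA := hkerA hr
    rw [RingHom.mem_ker, hχ, Ideal.Quotient.eq_zero_iff_mem.mpr h1, map_zero]
  obtain ⟨f, hf, hfq⟩ := rtint_exists_eigenform ι χ hker
  -- values of Hecke polynomials
  have key0 : ∀ t, t ∈ MvPolynomial.supported ℤ (outsideVars S) →
      ∃ htR : t ∈ R, Fermat.Agent.ES.heckeValue f t = χ ⟨t, htR⟩ := by
    intro t ht'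
    rw [MvPolynomial.supported_eq_adjoin_X] at ht'
    induction ht' using Algebra.adjoin_induction with
    | mem x hx =>
      obtain ⟨ℓ, hℓ, rfl⟩ := hx
      have hℓS : (ℓ : ℕ) ∉ S := hℓ
      have hℓN : ¬ (ℓ : ℕ) ∣ N := fun h => hℓS (hNS ℓ ℓ.2 h)
      have hX : (MvPolynomial.X ℓ : HeckeAlg) ∈ R := by
        rw [hR]
        exact (MvPolynomial.X_mem_supported (R := ℤ)).mpr hℓS
      refine ⟨hX, ?_⟩
      rw [Fermat.Agent.STB.stb_p1_heckeValue_X]
      refine hfq _ (ℓ : ℕ) ℓ.2 hℓN ?_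
      rw [hι]
      exact CuspForm.heckeEvalForms_heckeGen_of_not_dvd (N := N) (k := 2) (ℓ := ℓ) hℓN
    | algebraMap r =>
      refine ⟨R.algebraMap_mem r, ?_⟩
      rw [Fermat.Agent.STB.stb_p1_heckeValue_algebraMap]
      have : (⟨algebraMap ℤ HeckeAlg r, R.algebraMap_mem r⟩ : R) = algebraMap ℤ R r := rfl
      rw [this, eq_intCast, map_intCast]
    | add x y hx hy ihx ihy =>
      obtain ⟨hxR, ihx⟩ := ihx
      obtain ⟨hyR, ihy⟩ := ihy
      refine ⟨R.add_mem hxR hyR, ?_⟩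
      rw [Fermat.Agent.STB.stb_p1_heckeValue_add, ihx, ihy, ← map_add]
      rfl
    | mul x y hx hy ihx ihy =>
      obtain ⟨hxR, ihx⟩ := ihx
      obtain ⟨hyR, ihy⟩ := ihy
      refine ⟨R.mul_mem hxR hyR, ?_⟩
      rw [Fermat.Agent.STB.stb_p1_heckeValue_mul, ihx, ihy, ← map_mul]
      rfl
  have key : ∀ t (ht' : t ∈ MvPolynomial.supported ℤ (outsideVars S)),
      Fermat.Agent.ES.heckeValue f t = χ ⟨t, hR ▸ ht'⟩ := fun t ht' => (key0 t ht').2
  refine ⟨f, 𝔪', hf, h𝔪'max, hp𝔪', ?_, ?_⟩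
  · intro t ht
    have htR : t ∈ R := hR ▸ ht
    constructor
    · intro h0
      rw [key t ht, hχ] at h0
      have h1 : Ideal.Quotient.mk (RingHom.ker χA) ⟨t, htR⟩ = 0 :=
        he (h0.trans (map_zero e).symm)
      have h2 := hκmk ⟨t, htR⟩
      rw [h1, map_zero, hχA] at h2
      exact h2.symm
    · intro h0
      have h2 := hκmk ⟨t, htR⟩
      rw [hχA, h0] at h2
      have h1 : Ideal.Quotient.mk (RingHom.ker χA) ⟨t, htR⟩ = 0 :=
        hκinj (h2.trans (map_zero κ).symm)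
      rw [key t ht, hχ, h1, map_zero]
  · intro t ht hmem b hb
    have htR : t ∈ R := hR ▸ ht
    refine hcong (Ideal.Quotient.mk (RingHom.ker χA) ⟨t, htR⟩) ?_ b ?_
    · rw [hκmk, hχA]
      exact hmem
    · rw [hb, key t ht, hχ]

end point

end Fermat.Agent.RT.Interp
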