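import Fermat.Agent.RT.Interp.Model
import Fermat.Agent.RT.Interp.Eigen
import Fermat.Agent.RIB.Plan
import Fermat.Agent.S58.Nf

/-!
# K-machine, piece INTERP (helper46): from the characteristic-zero point to `StmtTR`

The algebraic core of the K-machine ends with a prime `𝔓` of the base Hecke ring `T₀` with
`λ ∉ 𝔓` and `Σ_r ≡ 1 mod 𝔓` at the trivial primes.  INTERP turns this into the conclusion
`RIB.Lowered P N q` of `RIB.StmtTR`.  The interface: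

* `RtintPoint P N q` (INPUT, delivered by K7 + OUT): a CHARACTERISTIC-ZERO POINT of level `N`:
  a local Noetherian domain `A` of characteristic zero with `p ∈ 𝔪_A` (think `A = T₀ ⧸ 𝔓`),
  eigenvalues `a ℓ ∈ A` (`ℓ ∉ S`) which OCCUR in `S₂(Γ₀(N))`, are congruent to `a_ℓ(W)` modulo
  `𝔪_A`, and a representation `ρ : G_ℚ → GL₂(A)` with `charpoly ρ(Frob_ℓ) = X² − a_ℓ X + ℓ`,
  residually absolutely irreducible, UNRAMIFIED at `q`.
* `StmtK8` (INPUT, helper21): a newform `g` of level `M`, `q ∥ M`, `q ≠ p`, `q ≠ 2`, `5 ≤ p`: NO representation `ρ`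
  over such an `A` whose eigenvalues are a specialisation of those of `g` is unramified at `q`.
* `StmtBase` : in the situation of `RIB.StmtTR` there is an `RtintPoint`.
* `rtint_lowered` (PROVED): `StmtK8` + an `RtintPoint P N q` ⇒ `RIB.Lowered P N q`.
* `rtint_stmtTR` (PROVED): `StmtK8 → StmtBase → RIB.StmtTR`.
* RESTRICTED FORMS (`5 ≤ q`, the forms which are USED): `StmtK8E`, `rtint_loweredE`,
  `rtint_stmtTRE : StmtK8E → StmtBase → RIB.StmtTR` (a trivial prime is `≥ 5`: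
  `rtint_five_le_of_trivial`); `K8At p q` is the common body, `rtint_lowered_at` the common proof.

Proof of `rtint_lowered`: `rtint_point` gives a normalised eigenform `f` of level `N` and a
maximal ideal `𝔪'` of `ℤ̄`; `nf_exists_newform` gives the newform `g₀` of level `N₀ ∣ N` of `f`;
`StmtK8` gives `q ∤ N₀`; the witness of `ModularRepOfLevel N₀` is `(g₀, rtintScale W u, 𝔪')` with
`u` the product of the primes in `S` (all of them are bad for `rtintScale W u`, so the congruence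
is only needed at the primes outside `S`).
-/

set_option autoImplicit false

noncomputable section

namespace Fermat.Agent.RT.Interp

open ModularCurve Fermat.Agent.S31 Fermat.Agent.ES ModularFormClass CongruenceSubgroup Polynomial
  WeierstrassCurve WeierstrassCurve.Affine WeierstrassCurve.Affine.Point

/-- **K8, consumer shape** (new at `q ∥ M` ⇒ ramified at `q`). -/
def StmtK8 : Prop :=
  ∀ (p : ℕ), p.Prime → 5 ≤ p → ∀ (M : ℕ) [NeZero M] (g : CuspForm (Gamma0 M) 2), g.IsNewform →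
    ∀ q : ℕ, q.Prime → q ≠ p → q ≠ 2 → q ∣ M → ¬ q ^ 2 ∣ M →
    ∀ S : Finset ℕ, p ∈ S → (∀ r : ℕ, r.Prime → r ∣ M → r ∈ S) →
    ∀ (A : Type) [CommRing A] [IsLocalRing A] [IsDomain A] [CharZero A] [IsNoetherianRing A],
      (p : A) ∈ IsLocalRing.maximalIdeal A →
    ∀ (a : Nat.Primes → A),
      (∀ t ∈ MvPolynomial.supported ℤ (outsideVars (↑S : Set ℕ)),
        heckeValue g t = 0 ↔ MvPolynomial.aeval a t = 0) →
    ∀ ρ : GaloisRepAdic A,
      (∀ ℓ : Nat.Primes, (ℓ : ℕ) ∉ S →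
        ∀ 𝔄 : ValuationSubring (AlgebraicClosure ℚ), 𝔄.LiesOverPrime ℓ →
          ∀ σ : AlgebraicClosure ℚ ≃ₐ[ℚ] AlgebraicClosure ℚ, 𝔄.IsFrobeniusAt σ ℓ →
            LinearMap.charpoly (ρ.ρ σ) = X ^ 2 - C (a ℓ) * X + C (((ℓ : ℕ) : A))) →
      ρ.residual.IsAbsolutelyIrreducible →
      ¬ ρ.IsUnramifiedAt q

/-- **A characteristic-zero point of level `N` whose representation is unramified at `q`.** -/
structure RtintPoint (P : FreyPackage) (N : ℕ) [NeZero N] (q : ℕ) : Type 1 where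
  /-- an integral model of the Frey curve -/
  W : WeierstrassCurve ℤ
  isModel : W.IsIntegralModelOf P.freyCurve
  /-- the finite set of excluded primes -/
  S : Finset ℕ
  p_mem : P.p ∈ S
  level_mem : ∀ r : ℕ, r.Prime → r ∣ N → r ∈ S
  /-- the coefficient ring (`T₀ ⧸ 𝔓`) -/
  A : Type
  [instCommRing : CommRing A]
  [instIsLocalRing : IsLocalRing A]
  [instIsDomain : IsDomain A]
  [instCharZero : CharZero A]
  [instIsNoetherianRing : IsNoetherianRing A]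
  p_mem_max : (P.p : A) ∈ IsLocalRing.maximalIdeal A
  /-- the Hecke eigenvalues -/
  a : Nat.Primes → A
  occurs : ∀ t ∈ MvPolynomial.supported ℤ (outsideVars (↑S : Set ℕ)),
    CuspForm.heckeEvalForms N 2 t = 0 → MvPolynomial.aeval a t = 0
  cong : ∀ ℓ : Nat.Primes, (ℓ : ℕ) ∉ S → W.IsGoodPrimeFor ℓ →
    a ℓ - ((W.apOfModel ℓ : ℤ) : A) ∈ IsLocalRing.maximalIdeal A
  /-- the Galois representation -/
  ρ : GaloisRepAdic A
  charpoly_frob : ∀ ℓ : Nat.Primes, (ℓ : ℕ) ∉ S →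
    ∀ 𝔄 : ValuationSubring (AlgebraicClosure ℚ), 𝔄.LiesOverPrime ℓ →
      ∀ σ : AlgebraicClosure ℚ ≃ₐ[ℚ] AlgebraicClosure ℚ, 𝔄.IsFrobeniusAt σ ℓ →
        LinearMap.charpoly (ρ.ρ σ) = X ^ 2 - C (a ℓ) * X + C (((ℓ : ℕ) : A))
  absIrr : ρ.residual.IsAbsolutelyIrreducible
  unram : ρ.IsUnramifiedAt q

attribute [instance] RtintPoint.instCommRing RtintPoint.instIsLocalRing RtintPoint.instIsDomain
  RtintPoint.instCharZero RtintPoint.instIsNoetherianRing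

/-- **The base contract** (K2–K7 + P + K4 + G2 + OUT): in the situation of `RIB.StmtTR` there is
a characteristic-zero point of level `N` whose representation is unramified at `q`. -/
def StmtBase : Prop :=
  ∀ (P : FreyPackage) (N q : ℕ) [NeZero N], P.IsConductorLevel N → ¬ P.p ∣ N → q.Prime →
    q ≠ 2 → q ∣ N → GaloisRepIsIrreducible (K := AlgebraicClosure ℚ) ℚ P.freyCurve P.p →
    P.ModularRepOfLevel N →
    (∀ r : ℕ, r.Prime → r ≠ 2 → r ∣ N → Fermat.Agent.RIB.IsTrivialPrime P r) →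
    Nonempty (RtintPoint P N q)

/-- the product of the primes of a finite set, as an integer -/
def rtintProd (S : Finset ℕ) : ℤ := ∏ s ∈ S.filter Nat.Prime, (s : ℤ)

theorem rtintProd_ne_zero (S : Finset ℕ) : rtintProd S ≠ 0 := by
  unfold rtintProd
  refine Finset.prod_ne_zero_iff.mpr fun s hs => ?_
  exact_mod_cast (Finset.mem_filter.mp hs).2.ne_zero

theorem rtint_dvd_rtintProd {S : Finset ℕ} {ℓ : ℕ} (hℓ : ℓ.Prime) (hℓS : ℓ ∈ S) :
    (ℓ : ℤ) ∣ rtintProd S :=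
  Finset.dvd_prod_of_mem (fun s : ℕ => (s : ℤ)) (Finset.mem_filter.mpr ⟨hℓS, hℓ⟩)

/-- **K8 at one pair `(p, q)`**: the body of `StmtK8` (and of `StmtK8E`). -/
def K8At (p q : ℕ) : Prop :=
  ∀ (M : ℕ) [NeZero M] (g : CuspForm (Gamma0 M) 2), g.IsNewform → q ∣ M → ¬ q ^ 2 ∣ M →
    ∀ S : Finset ℕ, p ∈ S → (∀ r : ℕ, r.Prime → r ∣ M → r ∈ S) →
    ∀ (A : Type) [CommRing A] [IsLocalRing A] [IsDomain A] [CharZero A] [IsNoetherianRing A],
      (p : A) ∈ IsLocalRing.maximalIdeal A →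
    ∀ (a : Nat.Primes → A),
      (∀ t ∈ MvPolynomial.supported ℤ (outsideVars (↑S : Set ℕ)),
        heckeValue g t = 0 ↔ MvPolynomial.aeval a t = 0) →
    ∀ ρ : GaloisRepAdic A,
      (∀ ℓ : Nat.Primes, (ℓ : ℕ) ∉ S →
        ∀ 𝔄 : ValuationSubring (AlgebraicClosure ℚ), 𝔄.LiesOverPrime ℓ →
          ∀ σ : AlgebraicClosure ℚ ≃ₐ[ℚ] AlgebraicClosure ℚ, 𝔄.IsFrobeniusAt σ ℓ →
            LinearMap.charpoly (ρ.ρ σ) = X ^ 2 - C (a ℓ) * X + C (((ℓ : ℕ) : A))) →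
      ρ.residual.IsAbsolutelyIrreducible →
      ¬ ρ.IsUnramifiedAt q

/-- **INTERP**, from K8 at the pair `(p, q)`. -/
theorem rtint_lowered_at (P : FreyPackage) {N q : ℕ} [NeZero N] (hK8 : K8At P.p q)
    (hsq : Squarefree N) (hq : q.Prime) (pt : RtintPoint P N q) :
    Fermat.Agent.RIB.Lowered P N q := by
  classical
  obtain ⟨f, 𝔪', hf, hmax, hp𝔪', hconj, hcong⟩ :=
    rtint_point (N := N) (↑pt.S : Set ℕ) (fun ℓ hℓ hℓN => pt.level_mem ℓ hℓ hℓN) P.pp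
      pt.p_mem_max pt.a pt.occurs
  obtain ⟨N₀, hN₀, g₀, hg₀, hg₀q⟩ := Fermat.Agent.S58.nf_exists_newform (NeZero.ne N) f hf
  have hN₀0 : N₀ ≠ 0 := fun h => NeZero.ne N (Nat.eq_zero_of_zero_dvd (h ▸ hN₀))
  have : NeZero N₀ := ⟨hN₀0⟩
  have hout : ∀ ℓ ∈ outsideVars (↑pt.S : Set ℕ), qCoeff ⇑g₀ (ℓ : ℕ) = qCoeff ⇑f (ℓ : ℕ) := by
    intro ℓ hℓ
    have hℓS : (ℓ : ℕ) ∉ (↑pt.S : Set ℕ) := hℓ
    exact hg₀q ℓ ℓ.2 (fun h => hℓS (pt.level_mem ℓ ℓ.2 h))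
  have hqN₀ : ¬ q ∣ N₀ := by
    intro hqN₀
    have hq2 : ¬ q ^ 2 ∣ N₀ := by
      intro h
      have h2 : q * q ∣ N := by
        rw [← pow_two]
        exact h.trans hN₀
      exact hq.not_isUnit (hsq q h2)
    refine hK8 N₀ g₀ hg₀ hqN₀ hq2 pt.S pt.p_mem
      (fun r hr hrN₀ => pt.level_mem r hr (hrN₀.trans hN₀)) pt.A pt.p_mem_max pt.a ?_ pt.ρ
      pt.charpoly_frob pt.absIrr pt.unram
    intro t ht
    rw [← hconj t ht, Fermat.Agent.STB.stb_p1_heckeValue_congr f g₀ hout ht]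
  refine ⟨N₀, hN₀, hqN₀, g₀, rtintScale pt.W (rtintProd pt.S), 𝔪', hg₀.1,
    rtintScale_isIntegralModelOf (rtintProd_ne_zero pt.S) pt.isModel, hmax, hp𝔪', ?_⟩
  intro ℓ hℓ hgood hℓN₀ hℓp
  obtain ⟨hℓu, hℓW⟩ := (rtintScale_isGoodPrimeFor_iff pt.W (rtintProd pt.S) hℓ).mp hgood
  have hℓS : ℓ ∉ pt.S := fun h => hℓu (rtint_dvd_rtintProd hℓ h)
  have hℓN : ¬ ℓ ∣ N := fun h => hℓS (pt.level_mem ℓ hℓ h)
  have hint : IsIntegral ℤ (qCoeff ⇑f ℓ) :=
    Fermat.Agent.S42.isIntegral_qCoeff_prime f hf hℓ hℓN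
  obtain ⟨ℓ', rfl⟩ : ∃ ℓ' : Nat.Primes, (ℓ' : ℕ) = ℓ := ⟨⟨ℓ, hℓ⟩, rfl⟩
  refine ⟨⟨qCoeff ⇑f (ℓ' : ℕ), hint⟩, ?_, ?_⟩
  · exact (hg₀q ℓ' hℓ hℓN).symm
  · rw [rtintScale_apOfModel pt.W (rtintProd pt.S) hℓ hℓu]
    have hX : (MvPolynomial.X ℓ' - MvPolynomial.C (pt.W.apOfModel ℓ') : HeckeAlg) ∈
        MvPolynomial.supported ℤ (outsideVars (↑pt.S : Set ℕ)) := by
      refine Subalgebra.sub_mem _ ?_ ?_
      · exact (MvPolynomial.X_mem_supported (R := ℤ)).mpr (by exact_mod_cast hℓS)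
      · exact Subalgebra.algebraMap_mem _ _
    refine hcong _ hX ?_ _ ?_
    · rw [map_sub, MvPolynomial.aeval_X, MvPolynomial.aeval_C, eq_intCast]
      exact pt.cong ℓ' (by exact_mod_cast hℓS) hℓW
    · rw [Fermat.Agent.STB.stb_p1_heckeValue_sub, Fermat.Agent.STB.stb_p1_heckeValue_X]
      have : heckeValue f (MvPolynomial.C (pt.W.apOfModel ℓ') : HeckeAlg) =
          ((pt.W.apOfModel ℓ' : ℤ) : ℂ) :=
        Fermat.Agent.STB.stb_p1_heckeValue_algebraMap f _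
      rw [this]
      push_cast
      rfl

/-- **INTERP.** -/
theorem rtint_lowered (hK8 : StmtK8) (P : FreyPackage) {N q : ℕ} [NeZero N]
    (hsq : Squarefree N) (hq : q.Prime) (hqp : q ≠ P.p) (hq2' : q ≠ 2) (pt : RtintPoint P N q) :
    Fermat.Agent.RIB.Lowered P N q :=
  rtint_lowered_at P (fun M _ g hg hqM hq2 => hK8 P.p P.pp P.hp5 M g hg q hq hqp hq2' hqM hq2)
    hsq hq pt

/-- **K8, consumer shape, restricted to `5 ≤ q`** (the reduction package of `X₀(M / q)` at `q`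
exists for `5 ≤ q`; in `RIB.StmtTR` the prime `q` is trivial, hence `q ≡ 1 mod p`, `q ≥ 11`). -/
def StmtK8E : Prop :=
  ∀ (p : ℕ), p.Prime → 5 ≤ p → ∀ (M : ℕ) [NeZero M] (g : CuspForm (Gamma0 M) 2), g.IsNewform →
    ∀ q : ℕ, q.Prime → q ≠ p → q ≠ 2 → q ∣ M → ¬ q ^ 2 ∣ M → 5 ≤ q →
    ∀ S : Finset ℕ, p ∈ S → (∀ r : ℕ, r.Prime → r ∣ M → r ∈ S) →
    ∀ (A : Type) [CommRing A] [IsLocalRing A] [IsDomain A] [CharZero A] [IsNoetherianRing A],
      (p : A) ∈ IsLocalRing.maximalIdeal A →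
    ∀ (a : Nat.Primes → A),
      (∀ t ∈ MvPolynomial.supported ℤ (outsideVars (↑S : Set ℕ)),
        heckeValue g t = 0 ↔ MvPolynomial.aeval a t = 0) →
    ∀ ρ : GaloisRepAdic A,
      (∀ ℓ : Nat.Primes, (ℓ : ℕ) ∉ S →
        ∀ 𝔄 : ValuationSubring (AlgebraicClosure ℚ), 𝔄.LiesOverPrime ℓ →
          ∀ σ : AlgebraicClosure ℚ ≃ₐ[ℚ] AlgebraicClosure ℚ, 𝔄.IsFrobeniusAt σ ℓ →
            LinearMap.charpoly (ρ.ρ σ) = X ^ 2 - C (a ℓ) * X + C (((ℓ : ℕ) : A))) →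
      ρ.residual.IsAbsolutelyIrreducible →
      ¬ ρ.IsUnramifiedAt q

theorem stmtK8E_of_stmtK8 (h : StmtK8) : StmtK8E :=
  fun p hp hp5 M _ g hg q hq hqp hq2 hqM hq2M _ => h p hp hp5 M g hg q hq hqp hq2 hqM hq2M

/-- **INTERP, restricted form** (`5 ≤ q`). -/
theorem rtint_loweredE (hK8 : StmtK8E) (P : FreyPackage) {N q : ℕ} [NeZero N]
    (hsq : Squarefree N) (hq : q.Prime) (hqp : q ≠ P.p) (hq2' : q ≠ 2) (hq5 : 5 ≤ q)
    (pt : RtintPoint P N q) :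
    Fermat.Agent.RIB.Lowered P N q :=
  rtint_lowered_at P
    (fun M _ g hg hqM hq2 => hK8 P.p P.pp P.hp5 M g hg q hq hqp hq2' hqM hq2 hq5) hsq hq pt

/-- a trivial prime is `≥ 5` (indeed `≡ 1 mod p`, `p ≥ 5`) -/
theorem rtint_five_le_of_trivial {P : FreyPackage} {q : ℕ}
    (h : Fermat.Agent.RIB.IsTrivialPrime P q) : 5 ≤ q := by
  obtain ⟨hq, -, hdvd, -⟩ := h
  have h1 : 0 < q - 1 := Nat.sub_pos_of_lt hq.one_lt
  have h2 : P.p ≤ q - 1 := Nat.le_of_dvd h1 hdvd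
  have h3 := P.hp5
  omega

/-- **`StmtTR` from K8 and the base contract.** -/
theorem rtint_stmtTR (hK8 : StmtK8) (hBase : StmtBase) : Fermat.Agent.RIB.StmtTR := by
  intro P N q hcond hpN hq hq2 hqN hirr hmod htriv
  have : NeZero N := ⟨hcond.pos.ne'⟩
  obtain ⟨pt⟩ := hBase P N q hcond hpN hq hq2 hqN hirr hmod htriv
  exact rtint_lowered hK8 P hcond.squarefree hq (fun h => hpN (h ▸ hqN)) hq2 pt

/-- **`StmtTR` from K8 (restricted form, `5 ≤ q`) and the base contract.** -/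
theorem rtint_stmtTRE (hK8 : StmtK8E) (hBase : StmtBase) : Fermat.Agent.RIB.StmtTR := by
  intro P N q hcond hpN hq hq2 hqN hirr hmod htriv
  have : NeZero N := ⟨hcond.pos.ne'⟩
  obtain ⟨pt⟩ := hBase P N q hcond hpN hq hq2 hqN hirr hmod htriv
  exact rtint_loweredE hK8 P hcond.squarefree hq (fun h => hpN (h ▸ hqN)) hq2
    (rtint_five_le_of_trivial (htriv q hq hq2 hqN)) pt

end Fermat.Agent.RT.Interp
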