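import Mathlib
import Fermat.Prelude.Def_GaloisRep_Adic
import Fermat.Agent.S31.TraceKernel

/-!
# K-machine, piece INTERP (helper46): absolute irreducibility of the residual representation
passes to base changes

* `rtint_irr_of_span` : matrices `R g ∈ M_n(A)` spanning `M_n(A)`, `ψ : A → K` a ring
  homomorphism to a field, `c` a basis of a `K`-vector space `V_K`: a subspace of `V_K` stable
  under all `toLin c c ((R g).map ψ)` is `⊥` or `⊤`.
* `rtint_absIrr_baseChangeAlong` : if `ρ.residual` is absolutely irreducible then so is
  `(ρ.baseChangeAlong φ hφ).residual`, for every local homomorphism `φ : A → B` of local rings.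
-/

set_option autoImplicit false

noncomputable section

namespace Fermat.Agent.RT.Interp

open Module

theorem rtint_irr_of_span {A : Type*} [CommRing A] {K : Type*} [Field K] (ψ : A →+* K)
    {n : ℕ} {G : Type*} (R : G → Matrix (Fin n) (Fin n) A)
    (hR : Submodule.span A (Set.range R) = ⊤)
    {VK : Type*} [AddCommGroup VK] [Module K VK] (c : Basis (Fin n) K VK)
    (W : Submodule K VK)
    (hW : ∀ g, ∀ x ∈ W, Matrix.toLin c c ((R g).map ψ) x ∈ W) : W = ⊥ ∨ W = ⊤ := by
  classical
  -- all matrices preserve `W`
  have hall : ∀ Y : Matrix (Fin n) (Fin n) A, ∀ x ∈ W, Matrix.toLin c c (Y.map ψ) x ∈ W := by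
    intro Y
    have hY : Y ∈ Submodule.span A (Set.range R) := hR ▸ Submodule.mem_top
    induction hY using Submodule.span_induction with
    | mem Y hY =>
      obtain ⟨g, rfl⟩ := hY
      exact hW g
    | zero =>
      intro x _
      have : ((0 : Matrix (Fin n) (Fin n) A).map ψ) = 0 := by
        ext i j; simp
      rw [this, map_zero, LinearMap.zero_apply]
      exact W.zero_mem
    | add Y Z _ _ hY hZ =>
      intro x hx
      have : ((Y + Z).map ψ) = Y.map ψ + Z.map ψ := by
        ext i j; simp
      rw [this, map_add, LinearMap.add_apply]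
      exact W.add_mem (hY x hx) (hZ x hx)
    | smul a Y _ hY =>
      intro x hx
      have : ((a • Y).map ψ) = ψ a • Y.map ψ := by
        ext i j; simp
      rw [this, map_smul, LinearMap.smul_apply]
      exact W.smul_mem _ (hY x hx)
  by_cases h0 : W = ⊥
  · exact Or.inl h0
  right
  obtain ⟨w, hwW, hw0⟩ := (Submodule.ne_bot_iff W).mp h0
  have hex : ∃ i₀, c.repr w i₀ ≠ 0 := by
    by_contra hcon
    push Not at hcon
    apply hw0
    apply c.repr.injective
    ext i
    rw [hcon i, map_zero, Finsupp.zero_apply]
  obtain ⟨i₀, hi₀⟩ := hex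
  have hbasis : ∀ j, c j ∈ W := by
    intro j
    have h1 := hall (Matrix.single j i₀ (1 : A)) w hwW
    have h2 : Matrix.toLin c c ((Matrix.single j i₀ (1 : A)).map ψ) w = c.repr w i₀ • c j := by
      have hm : (Matrix.single j i₀ (1 : A)).map ψ = Matrix.single j i₀ (1 : K) := by
        ext a b
        simp only [Matrix.map_apply, Matrix.single_apply]
        split_ifs <;> simp
      rw [hm]
      conv_lhs => rw [← c.sum_repr w]
      rw [map_sum]
      simp only [map_smul, Matrix.toLin_self, Matrix.single_apply]
      rw [Finset.sum_eq_single i₀]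
      · congr 1
        rw [Finset.sum_eq_single j]
        · simp
        · intro b _ hb
          simp [hb.symm]
        · intro h; exact absurd (Finset.mem_univ j) h
      · intro b _ hb
        have : ∀ x : Fin n, (if j = x ∧ i₀ = b then (1 : K) else 0) = 0 := by
          intro x
          rw [if_neg]
          rintro ⟨-, h⟩
          exact hb h.symm
        simp [this]
      · intro h; exact absurd (Finset.mem_univ i₀) h
    rw [h2] at h1
    have h3 := W.smul_mem (c.repr w i₀)⁻¹ h1
    rwa [smul_smul, inv_mul_cancel₀ hi₀, one_smul] at h3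
  rw [eq_top_iff, ← c.span_eq, Submodule.span_le]
  rintro _ ⟨j, rfl⟩
  exact hbasis j

open scoped TensorProduct

/-- **Absolute irreducibility of the residual representation passes to base changes.** -/
theorem rtint_absIrr_baseChangeAlong {A B : Type} [CommRing A] [IsLocalRing A] [CommRing B]
    [IsLocalRing B] (φ : A →+* B) (hφ : IsLocalHom φ) (ρ : GaloisRepAdic A)
    (habs : ρ.residual.IsAbsolutelyIrreducible) :
    (ρ.baseChangeAlong φ hφ).residual.IsAbsolutelyIrreducible := by
  classical
  let _ : Algebra A B := φ.toAlgebra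
  let b : Basis (Fin 2) A ρ.V := Module.finBasisOfFinrankEq A ρ.V ρ.finrank_eq
  have hspan := Fermat.Agent.S31.span_range_toMatrix_eq_top ρ habs b
  let bB : Basis (Fin 2) B (B ⊗[A] ρ.V) := Algebra.TensorProduct.basis B b
  let bk : Basis (Fin 2) (IsLocalRing.ResidueField B)
      (IsLocalRing.ResidueField B ⊗[B] (B ⊗[A] ρ.V)) :=
    Algebra.TensorProduct.basis (IsLocalRing.ResidueField B) bB
  let bK : Basis (Fin 2) (AlgebraicClosure (IsLocalRing.ResidueField B))
      (AlgebraicClosure (IsLocalRing.ResidueField B) ⊗[IsLocalRing.ResidueField B]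
        (IsLocalRing.ResidueField B ⊗[B] (B ⊗[A] ρ.V))) :=
    Algebra.TensorProduct.basis (AlgebraicClosure (IsLocalRing.ResidueField B)) bk
  let ψ : A →+* AlgebraicClosure (IsLocalRing.ResidueField B) :=
    (algebraMap (IsLocalRing.ResidueField B) (AlgebraicClosure (IsLocalRing.ResidueField B))).comp
      ((algebraMap B (IsLocalRing.ResidueField B)).comp (algebraMap A B))
  intro W hW
  refine rtint_irr_of_span ψ (fun g => LinearMap.toMatrix b b (ρ.ρ g)) hspan bK W ?_
  intro g x hx
  have key : Matrix.toLin bK bK ((LinearMap.toMatrix b b (ρ.ρ g)).map ψ) =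
      ((((ρ.ρ g).baseChange B).baseChange (IsLocalRing.ResidueField B)).baseChange
        (AlgebraicClosure (IsLocalRing.ResidueField B))) := by
    apply (LinearMap.toMatrix bK bK).injective
    rw [LinearMap.toMatrix_toLin, LinearMap.toMatrix_baseChange, LinearMap.toMatrix_baseChange,
      LinearMap.toMatrix_baseChange]
    ext i j
    simp [ψ]
  rw [key]
  exact hW g x hx

end Fermat.Agent.RT.Interp
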