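import Fermat.Agent.RT.Interp.Plan
import Fermat.Agent.RT.Interp.AbsIrr

/-!
# K-machine, piece INTERP (helper46): the characteristic-zero point `T ⧸ 𝔓`

`rtint_point_of_quot` : ADAPTER.  From a representation `ρ` over a Noetherian local ring `T`
(the base Hecke ring `T₀`) with eigenvalues `a ℓ ∈ T`, and a prime `𝔓` of `T` of residue
characteristic zero, such that
* `hocc`  : Hecke polynomials outside `S` that kill `S₂(Γ₀(N))` vanish at `a` modulo `𝔓`;
* `hcong` : `a ℓ ≡ a_ℓ(W)` modulo `𝔪_T`;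
* `hfrob` : `charpoly ρ(Frob_ℓ) = X² − a_ℓ X + ℓ` (`ℓ ∉ S`);
* `habs`  : `ρ.residual` is absolutely irreducible;
* `hunr`  : for every `n`, inertia at `q` acts trivially modulo `𝔓 + 𝔪_T ^ n`
  (e.g. `ρ(σ_q) ≡ 1 mod 𝔓` for a topological generator `σ_q` of the image of inertia),
an `RtintPoint P N q` with `A = T ⧸ 𝔓`.

Auxiliary: `rtint_quot_isLocalRing`, `rtint_quot_isLocalHom`, `rtint_quot_charZero`,
`rtint_natCast_not_mem` (from `λ ∉ 𝔓` over a discrete valuation ring of characteristic zero),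
`rtint_unram_of_forall_pow` (Krull's intersection theorem).
-/

set_option autoImplicit false
set_option linter.style.haveILetI false
set_option linter.unusedSectionVars false

noncomputable section

namespace Fermat.Agent.RT.Interp

open ModularCurve Fermat.Agent.S31 Fermat.Agent.ES ModularFormClass CongruenceSubgroup Polynomial
open scoped TensorProduct

section quot

variable {T : Type} [CommRing T] [IsLocalRing T]

theorem rtint_quot_isLocalRing (𝔓 : Ideal T) (h𝔓 : 𝔓 ≠ ⊤) : IsLocalRing (T ⧸ 𝔓) :=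
  have : Nontrivial (T ⧸ 𝔓) := Ideal.Quotient.nontrivial_iff.mpr h𝔓
  IsLocalRing.of_surjective' (Ideal.Quotient.mk 𝔓) Ideal.Quotient.mk_surjective

theorem rtint_quot_isLocalHom (𝔓 : Ideal T) (h𝔓 : 𝔓 ≠ ⊤) :
    IsLocalHom (Ideal.Quotient.mk 𝔓) :=
  have : Nontrivial (T ⧸ 𝔓) := Ideal.Quotient.nontrivial_iff.mpr h𝔓
  IsLocalHom.of_surjective (Ideal.Quotient.mk 𝔓) Ideal.Quotient.mk_surjective

theorem rtint_quot_charZero (𝔓 : Ideal T) (hchar : ∀ n : ℕ, n ≠ 0 → (n : T) ∉ 𝔓) :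
    CharZero (T ⧸ 𝔓) := by
  refine charZero_of_inj_zero fun n hn => ?_
  by_contra h0
  apply hchar n h0
  rw [← Ideal.Quotient.eq_zero_iff_mem, map_natCast]
  exact hn

/-- `λ ∉ 𝔓` for a uniformiser `λ` of a discrete valuation ring `O` of characteristic zero gives
residue characteristic zero. -/
theorem rtint_natCast_not_mem {O : Type*} [CommRing O] [IsDomain O] [IsDiscreteValuationRing O]
    [CharZero O] {T' : Type*} [CommRing T'] [Algebra O T'] (lam : O)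
    (hlam : IsLocalRing.maximalIdeal O = Ideal.span {lam})
    (𝔓 : Ideal T') [h𝔓 : 𝔓.IsPrime] (hl : algebraMap O T' lam ∉ 𝔓) (n : ℕ) (hn : n ≠ 0) :
    (n : T') ∉ 𝔓 := by
  have hirr : Irreducible lam :=
    (IsDiscreteValuationRing.irreducible_iff_uniformizer lam).mpr hlam
  have hn0 : (n : O) ≠ 0 := Nat.cast_ne_zero.mpr hn
  obtain ⟨k, u, hu⟩ := IsDiscreteValuationRing.eq_unit_mul_pow_irreducible hn0 hirr
  intro hmem
  have h1 : (n : T') = algebraMap O T' (u : O) * algebraMap O T' lam ^ k := by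
    rw [← map_pow, ← map_mul, ← hu, map_natCast]
  rw [h1] at hmem
  rcases h𝔓.mem_or_mem hmem with h | h
  · exact h𝔓.ne_top (Ideal.eq_top_of_isUnit_mem _ h ((u.isUnit).map (algebraMap O T')))
  · exact hl (h𝔓.mem_of_pow_mem k h)

/-- **Krull**: an endomorphism which is the identity modulo ideals `J n` mapping into
`𝔪_B ^ n` becomes the identity after base change to `B`. -/
theorem rtint_aux_baseChange_eq_one {T' B : Type*} [CommRing T'] [CommRing B] [Algebra T' B]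
    [IsLocalRing B] [IsNoetherianRing B] {V : Type*} [AddCommGroup V] [Module T' V]
    [Module.Finite T' V] (f : V →ₗ[T'] V) (J : ℕ → Ideal T')
    (hJ : ∀ n, ∀ t ∈ J n, algebraMap T' B t ∈ IsLocalRing.maximalIdeal B ^ n)
    (h : ∀ n v, f v - v ∈ J n • (⊤ : Submodule T' V)) : f.baseChange B = 1 := by
  have hzero : ∀ v : V, (1 : B) ⊗ₜ[T'] (f v - v) = 0 := by
    intro v
    have hkrull := Ideal.iInf_pow_smul_eq_bot_of_isLocalRing (R := B)
      (M := B ⊗[T'] V) (IsLocalRing.maximalIdeal B)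
      (Ideal.IsMaximal.ne_top inferInstance)
    have hmem : (1 : B) ⊗ₜ[T'] (f v - v) ∈
        (⨅ i : ℕ, IsLocalRing.maximalIdeal B ^ i • ⊤ : Submodule B (B ⊗[T'] V)) := by
      rw [Submodule.mem_iInf]
      intro n
      refine Submodule.smul_induction_on (p := fun x => (1 : B) ⊗ₜ[T'] x ∈
        (IsLocalRing.maximalIdeal B ^ n) • (⊤ : Submodule B (B ⊗[T'] V))) (h n v) ?_ ?_
      · intro t ht w _
        have : (1 : B) ⊗ₜ[T'] (t • w) = (algebraMap T' B t) • ((1 : B) ⊗ₜ[T'] w) := by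
          rw [TensorProduct.tmul_smul, TensorProduct.smul_tmul', TensorProduct.smul_tmul',
            Algebra.smul_def, smul_eq_mul]
        rw [this]
        exact Submodule.smul_mem_smul (hJ n t ht) Submodule.mem_top
      · intro x y hx hy
        rw [TensorProduct.tmul_add]
        exact Submodule.add_mem _ hx hy
    rw [hkrull] at hmem
    exact (Submodule.mem_bot _).mp hmem
  refine LinearMap.ext fun w => ?_
  rw [Module.End.one_apply]
  induction w using TensorProduct.induction_on with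
  | zero => rw [map_zero]
  | tmul c v =>
    rw [LinearMap.baseChange_tmul, ← sub_eq_zero, ← TensorProduct.tmul_sub]
    have h1 : c ⊗ₜ[T'] (f v - v) = c • ((1 : B) ⊗ₜ[T'] (f v - v)) := by
      rw [TensorProduct.smul_tmul', smul_eq_mul, mul_one]
    rw [h1, hzero v, smul_zero]
  | add x y hx hy => rw [map_add, hx, hy]

/-- **Krull**: inertia acts trivially on the base change to `T ⧸ 𝔓` if it acts trivially modulo
`𝔓 + 𝔪 ^ n` for every `n`. -/
theorem rtint_unram_of_forall_pow [IsNoetherianRing T] (𝔓 : Ideal T) (h𝔓 : 𝔓 ≠ ⊤)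
    (ρ : GaloisRepAdic T) (q : ℕ)
    (hunr : ∀ n : ℕ, ∀ 𝔄 : ValuationSubring (AlgebraicClosure ℚ), 𝔄.LiesOverPrime q →
      ∀ σ ∈ 𝔄.inertiaSubgroupIn ℚ, ∀ v : ρ.V,
        ρ.ρ σ v - v ∈ (𝔓 ⊔ IsLocalRing.maximalIdeal T ^ n) • (⊤ : Submodule T ρ.V)) :
    letI := rtint_quot_isLocalRing 𝔓 h𝔓
    (ρ.baseChangeAlong (Ideal.Quotient.mk 𝔓) (rtint_quot_isLocalHom 𝔓 h𝔓)).IsUnramifiedAt q := by
  letI := rtint_quot_isLocalRing 𝔓 h𝔓
  have hloc := rtint_quot_isLocalHom 𝔓 h𝔓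
  intro 𝔄 h𝔄 σ hσ
  have hmap : ∀ n : ℕ, ∀ t ∈ 𝔓 ⊔ IsLocalRing.maximalIdeal T ^ n,
      Ideal.Quotient.mk 𝔓 t ∈ IsLocalRing.maximalIdeal (T ⧸ 𝔓) ^ n := by
    intro n t ht
    obtain ⟨t₁, ht₁, t₂, ht₂, rfl⟩ := Submodule.mem_sup.mp ht
    rw [map_add, Ideal.Quotient.eq_zero_iff_mem.mpr ht₁, zero_add]
    have h1 : (IsLocalRing.maximalIdeal T ^ n).map (Ideal.Quotient.mk 𝔓) ≤
        IsLocalRing.maximalIdeal (T ⧸ 𝔓) ^ n := by
      rw [Ideal.map_pow]
      exact Ideal.pow_right_mono (Ideal.map_le_iff_le_comap.mpr fun a ha =>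
        Ideal.mem_comap.mpr (map_nonunit (Ideal.Quotient.mk 𝔓) a ha)) n
    exact h1 (Ideal.mem_map_of_mem _ ht₂)
  exact @rtint_aux_baseChange_eq_one T (T ⧸ 𝔓) _ _ (Ideal.Quotient.mk 𝔓).toAlgebra _ _ ρ.V _ _ _
    (ρ.ρ σ) (fun n => 𝔓 ⊔ IsLocalRing.maximalIdeal T ^ n) hmap
    (fun n v => hunr n 𝔄 h𝔄 σ hσ v)

/-- the characteristic polynomial `X² − aX + ℓ` after base change -/
theorem rtint_aux_charpoly {T' B : Type*} [CommRing T'] [CommRing B] [Algebra T' B]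
    {V : Type*} [AddCommGroup V] [Module T' V] [Module.Free T' V] [Module.Finite T' V]
    (f : V →ₗ[T'] V) (a : T') (ℓ : ℕ) (h : f.charpoly = X ^ 2 - C a * X + C (ℓ : T')) :
    (f.baseChange B).charpoly = X ^ 2 - C (algebraMap T' B a) * X + C (ℓ : B) := by
  rw [LinearMap.charpoly_baseChange, h]
  simp

end quot

section adapter

variable {T : Type} [CommRing T] [IsLocalRing T] [IsNoetherianRing T]

/-- **ADAPTER: the characteristic-zero point `T ⧸ 𝔓`.** -/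
theorem rtint_point_of_quot (P : FreyPackage) (N : ℕ) [NeZero N] (q : ℕ)
    (W : WeierstrassCurve ℤ) (hW : W.IsIntegralModelOf P.freyCurve)
    (S : Finset ℕ) (hpS : P.p ∈ S) (hNS : ∀ r : ℕ, r.Prime → r ∣ N → r ∈ S)
    (𝔓 : Ideal T) (h𝔓 : 𝔓.IsPrime) (hchar : ∀ n : ℕ, n ≠ 0 → (n : T) ∉ 𝔓)
    (hpT : (P.p : T) ∈ IsLocalRing.maximalIdeal T)
    (a : Nat.Primes → T)
    (hocc : ∀ t ∈ MvPolynomial.supported ℤ (outsideVars (↑S : Set ℕ)),
      CuspForm.heckeEvalForms N 2 t = 0 → MvPolynomial.aeval a t ∈ 𝔓)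
    (hcong : ∀ ℓ : Nat.Primes, (ℓ : ℕ) ∉ S → W.IsGoodPrimeFor ℓ →
      a ℓ - ((W.apOfModel ℓ : ℤ) : T) ∈ IsLocalRing.maximalIdeal T)
    (ρ : GaloisRepAdic T)
    (hfrob : ∀ ℓ : Nat.Primes, (ℓ : ℕ) ∉ S →
      ∀ 𝔄 : ValuationSubring (AlgebraicClosure ℚ), 𝔄.LiesOverPrime ℓ →
        ∀ σ : AlgebraicClosure ℚ ≃ₐ[ℚ] AlgebraicClosure ℚ, 𝔄.IsFrobeniusAt σ ℓ →
          LinearMap.charpoly (ρ.ρ σ) = X ^ 2 - C (a ℓ) * X + C (((ℓ : ℕ) : T)))
    (habs : ρ.residual.IsAbsolutelyIrreducible)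
    (hunr : ∀ n : ℕ, ∀ 𝔄 : ValuationSubring (AlgebraicClosure ℚ), 𝔄.LiesOverPrime q →
      ∀ σ ∈ 𝔄.inertiaSubgroupIn ℚ, ∀ v : ρ.V,
        ρ.ρ σ v - v ∈ (𝔓 ⊔ IsLocalRing.maximalIdeal T ^ n) • (⊤ : Submodule T ρ.V)) :
    Nonempty (RtintPoint P N q) := by
  classical
  have hne : 𝔓 ≠ ⊤ := h𝔓.ne_top
  letI hlocal : IsLocalRing (T ⧸ 𝔓) := rtint_quot_isLocalRing 𝔓 hne
  have hloc : IsLocalHom (Ideal.Quotient.mk 𝔓) := rtint_quot_isLocalHom 𝔓 hne
  have hmax : ∀ t ∈ IsLocalRing.maximalIdeal T,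
      Ideal.Quotient.mk 𝔓 t ∈ IsLocalRing.maximalIdeal (T ⧸ 𝔓) :=
    fun t ht => map_nonunit (Ideal.Quotient.mk 𝔓) t ht
  have haeval : ∀ t : HeckeAlg, MvPolynomial.aeval (fun ℓ => Ideal.Quotient.mk 𝔓 (a ℓ)) t =
      Ideal.Quotient.mk 𝔓 (MvPolynomial.aeval a t) := by
    intro t
    have := MvPolynomial.comp_aeval (R := ℤ) a ((Ideal.Quotient.mk 𝔓).toIntAlgHom)
    have h2 := congrArg (fun F : HeckeAlg →ₐ[ℤ] (T ⧸ 𝔓) => F t) this
    exact h2.symm
  exact ⟨{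
    W := W
    isModel := hW
    S := S
    p_mem := hpS
    level_mem := hNS
    A := T ⧸ 𝔓
    instCommRing := inferInstance
    instIsLocalRing := hlocal
    instIsDomain := Ideal.Quotient.isDomain 𝔓
    instCharZero := rtint_quot_charZero 𝔓 hchar
    instIsNoetherianRing := inferInstance
    p_mem_max := by
      have := hmax _ hpT
      rwa [map_natCast] at this
    a := fun ℓ => Ideal.Quotient.mk 𝔓 (a ℓ)
    occurs := fun t ht h0 =>
      (haeval t).trans (Ideal.Quotient.eq_zero_iff_mem.mpr (hocc t ht h0))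
    cong := fun ℓ hℓ hgood => by
      have := hmax _ (hcong ℓ hℓ hgood)
      rwa [map_sub, map_intCast] at this
    ρ := ρ.baseChangeAlong (Ideal.Quotient.mk 𝔓) hloc
    charpoly_frob := fun ℓ hℓ 𝔄 h𝔄 σ hσ => by
      have := @rtint_aux_charpoly T (T ⧸ 𝔓) _ _ (Ideal.Quotient.mk 𝔓).toAlgebra ρ.V _ _ _ _
        (ρ.ρ σ) (a ℓ) (ℓ : ℕ) (hfrob ℓ hℓ 𝔄 h𝔄 σ hσ)
      exact this
    absIrr := rtint_absIrr_baseChangeAlong (Ideal.Quotient.mk 𝔓) hloc ρ habs
    unram := rtint_unram_of_forall_pow 𝔓 hne ρ q hunr }⟩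

end adapter

end Fermat.Agent.RT.Interp
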